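import Fermat.Agent.CloseDivisors.Energy

/-!
# A block of primes with close divisors with positive probability

The low primes lie in `J` ranges of logarithmic lengths `h, h + 1, …` below `D`. With probability at
least `5 / 8` their signed sums meet a positive proportion of the intervals of length `log 2 / 2` in
`[-16 D, 16 D]`, and then two further primes of size `exp (O (D))` bring one of the sums below
`log 2` with probability bounded below.
-/

set_option autoImplicit false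

noncomputable section

namespace FA.CloseDivisors

open Finset Filter
open scoped Topology

/-- Two distinct signed products with ratio less than `2`. -/
def HasClose (A : Finset ℕ) : Prop :=
  ∃ σ ∈ signs A, σ.1 ≠ σ.2 ∧ |signedLog σ| < Real.log 2

open scoped Classical in
/-- The indicator. -/
def closeInd (A : Finset ℕ) : ℝ := if HasClose A then 1 else 0

theorem closeInd_nonneg (A : Finset ℕ) : 0 ≤ closeInd A := by
  rw [closeInd]; split_ifs <;> norm_num

theorem closeInd_eq_one {A : Finset ℕ} (h : HasClose A) : closeInd A = 1 := if_pos h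

theorem log_three_bound : 1.074 ≤ Real.log 3 := by
  have h := Real.log_le_log (show (0 : ℝ) < 2 ^ 31 by norm_num)
    (show (2 : ℝ) ^ 31 ≤ 3 ^ 20 by norm_num)
  rw [Real.log_pow, Real.log_pow] at h
  push_cast at h
  linarith [Real.log_two_gt_d9]

/-- **Two primes at the top.** -/
theorem exists_top_bound : ∃ C₁ v₀ : ℝ, 0 ≤ C₁ ∧ ∀ (D : ℝ) (A : Finset ℕ) (K : ℝ),
    1 ≤ K → 80 * K ≤ D → v₀ ≤ D → (∀ p ∈ A, Real.log p ≤ D) →
    ∑ p ∈ A, Real.log p ≤ 16 * D → D / (8 * K) ≤ ((binSet A (Real.log 2 / 2)).card : ℝ) →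
    (Real.exp (2 * (Real.log (3 * Real.exp (C₁ + 1) + 2) + C₁)))⁻¹ /
        (2 * (80 * K * (8 * (3 * Real.exp (C₁ + 1) + 2) * 20))) ≤
      blockMean (logPrimes (20 * D) ((3 * Real.exp (C₁ + 1) + 2) * (20 * D)))
        fun B => closeInd (A ∪ B) := by
  classical
  obtain ⟨C₁, hC₁, hmass⟩ := exists_sum_logPrimes
  obtain ⟨v₀, hv₀, hlow⟩ := exists_short_range_ge
  refine ⟨C₁, v₀, hC₁, fun D A K hK hKD hvD hAD hsum hbins => ?_⟩
  obtain ⟨Γ, hΓ⟩ : ∃ Γ, Γ = 3 * Real.exp (C₁ + 1) := ⟨_, rfl⟩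
  obtain ⟨R, hR⟩ : ∃ R, R = 20 * D := ⟨_, rfl⟩
  obtain ⟨w, hw⟩ : ∃ w, w = Real.log 2 / 2 := ⟨_, rfl⟩
  rw [← hΓ, ← hR]
  rw [← hw] at hbins
  have hΓ3 : 3 ≤ Γ := by linarith [Real.one_le_exp (show 0 ≤ C₁ + 1 by linarith)]
  have hl2 := Real.log_two_gt_d9
  have hl2' := Real.log_two_lt_d9
  have hD : 80 ≤ D := by linarith
  obtain ⟨P, hP⟩ : ∃ P, P = logPrimes R ((Γ + 2) * R) := ⟨_, rfl⟩
  obtain ⟨Mid, hMid⟩ : ∃ M, M = logPrimes (3 * R) (Γ * R) := ⟨_, rfl⟩
  rw [← hP]
  have hPp : ∀ p ∈ P, p.Prime := hP ▸ prime_of_mem_logPrimes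
  -- the separated intervals
  obtain ⟨B₀, hB₀⟩ : ∃ B₀, B₀ = (binSet A w).filter fun b : ℤ => 3 ≤ |b| := ⟨_, rfl⟩
  have hB₀card : ((binSet A w).card : ℝ) - 5 ≤ (B₀.card : ℝ) := by
    have h : (binSet A w).card ≤ B₀.card + (Icc (-2 : ℤ) 2).card := by
      refine (card_le_card fun b hb => ?_).trans (card_union_le _ _)
      rw [mem_union, hB₀, mem_filter, mem_Icc]
      rcases le_or_gt 3 |b| with h | h
      · exact Or.inl ⟨hb, h⟩
      · exact Or.inr (abs_le.1 (by omega))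
    rw [show (Icc (-2 : ℤ) 2).card = 5 from rfl] at h
    have : ((binSet A w).card : ℝ) ≤ (B₀.card : ℝ) + 5 := by exact_mod_cast h
    linarith
  obtain ⟨r, -, hr⟩ : ∃ r ∈ range 5, (B₀.card : ℝ) / 5 ≤
      ((B₀.filter fun b : ℤ => (b % 5).toNat = r).card : ℝ) := by
    refine exists_le_of_sum_le (nonempty_range_iff.2 (by norm_num)) ?_
    rw [sum_const, card_range, nsmul_eq_mul, ← Nat.cast_sum, ← card_eq_sum_card_fiberwise
      (f := fun b : ℤ => (b % 5).toNat) fun b _ => ?_]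
    · push_cast
      linarith
    · simp only [mem_coe, mem_range]
      omega
  obtain ⟨B₅, hB₅⟩ : ∃ B₅, B₅ = B₀.filter fun b : ℤ => (b % 5).toNat = r := ⟨_, rfl⟩
  rw [← hB₅] at hr
  have hB₅card : D / (80 * K) ≤ (B₅.card : ℝ) := by
    have h1 : 10 ≤ D / (8 * K) := by
      rw [le_div_iff₀ (by positivity)]; linarith
    have h2 : D / (80 * K) = D / (8 * K) / 10 := by ring
    linarith
  have hb : ∀ b ∈ B₅, (∃ σ ∈ signs A, (b : ℝ) * w ≤ signedLog σ ∧
      signedLog σ < (b : ℝ) * w + w) ∧ 3 ≤ |b| ∧ |(b : ℝ) * w| ≤ 16 * D + 1 := fun b hb => by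
    rw [hB₅, mem_filter, hB₀, mem_filter, binSet] at hb
    obtain ⟨⟨hbb, h3⟩, -⟩ := hb
    obtain ⟨σ, hσ, rfl⟩ := mem_image.1 hbb
    have hw0 : 0 < w := by linarith
    have h1 := Int.floor_le (signedLog σ / w)
    have h2 := Int.lt_floor_add_one (signedLog σ / w)
    rw [le_div_iff₀ hw0] at h1
    rw [div_lt_iff₀ hw0, add_mul, one_mul] at h2
    refine ⟨⟨σ, hσ, h1, h2⟩, h3, ?_⟩
    obtain ⟨h4, h5⟩ := abs_le.1 ((abs_signedLog_le hσ).trans hsum)
    rw [abs_le]
    constructor <;> linarith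
  obtain ⟨low, hlowdef⟩ : ∃ low : ℕ → ℤ → ℝ,
      low = fun (q : ℕ) (b : ℤ) => Real.log q - (b : ℝ) * w - Real.log 2 := ⟨_, rfl⟩
  obtain ⟨W, hW⟩ : ∃ W : ℕ → ℤ → Finset ℕ, W = fun q b =>
      logPrimes (low q b) (low q b + Real.log 2 + Real.exp (-low q b)) := ⟨_, rfl⟩
  have hrange : ∀ q ∈ Mid, ∀ b ∈ B₅, 2 * R ≤ low q b ∧ low q b + 1 ≤ (Γ + 2) * R - 1 ∧
      Real.exp (-low q b) ≤ 1 / 3 := fun q hq b hbm => by
    rw [hMid, mem_logPrimes] at hq
    obtain ⟨h1, h2⟩ := abs_le.1 (hb b hbm).2.2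
    rw [hlowdef]
    simp only
    refine ⟨by linarith, by linarith, ?_⟩
    rw [Real.exp_neg, one_div]
    exact inv_anti₀ (by norm_num) (le_trans (by linarith) (Real.add_one_le_exp _))
  obtain ⟨pairs, hpairs⟩ : ∃ pairs, pairs = Mid.sigma fun q => B₅.biUnion (W q) := ⟨_, rfl⟩
  have hgood : ∀ u ∈ pairs, u.1 ∈ P ∧ u.2 ∈ P ∧ u.1 ≠ u.2 ∧ HasClose (A ∪ {u.2, u.1}) := by
    rintro ⟨q, p⟩ hu
    rw [hpairs, mem_sigma, mem_biUnion] at hu
    obtain ⟨hq, b, hbm, hpW⟩ := hu
    obtain ⟨h2R, hhi, htiny⟩ := hrange q hq b hbm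
    obtain ⟨⟨σ, hσ, hs1, hs2⟩, h3, -⟩ := hb b hbm
    rw [hW] at hpW
    obtain ⟨hp, hp1, hp2⟩ := mem_logPrimes.1 hpW
    rw [hMid, mem_logPrimes] at hq
    obtain ⟨hqp, hq1, hq2⟩ := hq
    rw [hlowdef] at h2R hhi htiny hp1 hp2
    simp only at h2R hhi htiny hp1 hp2
    have hne : q ≠ p := fun e => by
      subst e
      rcases le_abs.1 h3 with h | h
      · have : (3 : ℝ) * w ≤ (b : ℝ) * w :=
          mul_le_mul_of_nonneg_right (by exact_mod_cast h) (by linarith)
        linarith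
      · have h' : (b : ℝ) ≤ -3 := by
          have : b ≤ -3 := by omega
          exact_mod_cast this
        have := mul_le_mul_of_nonneg_right h' (show 0 ≤ w by linarith)
        linarith
    have hpA : p ∉ A := fun h => by linarith [hAD p h]
    have hqA : q ∉ A := fun h => by linarith [hAD q h]
    refine ⟨hP ▸ mem_logPrimes.2 ⟨hqp, by linarith, by linarith⟩,
      hP ▸ mem_logPrimes.2 ⟨hp, by linarith, by linarith⟩, hne, ?_⟩
    obtain ⟨g1, g2, g3⟩ := mem_signs.1 hσ
    have hp1' : p ∉ σ.1 := fun h => hpA (g1 h)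
    have hq2' : q ∉ σ.2 := fun h => hqA (g2 h)
    refine ⟨(insert p σ.1, insert q σ.2), mem_signs.2 ⟨?_, ?_, ?_⟩, fun e => ?_, ?_⟩
    · exact insert_subset (by simp) (g1.trans subset_union_left)
    · exact insert_subset (by simp) (g2.trans subset_union_left)
    · rw [disjoint_insert_left, disjoint_insert_right, mem_insert, not_or]
      exact ⟨⟨hne.symm, fun h => hpA (g2 h)⟩, fun h => hqA (g1 h), g3⟩
    · have h := mem_insert_self p σ.1
      simp only at e
      rw [e, mem_insert] at h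
      exact h.elim (fun h => hne h.symm) fun h => hpA (g2 h)
    · rw [signedLog, sum_insert hp1', sum_insert hq2']
      rw [signedLog] at hs1 hs2
      rw [abs_lt]
      constructor <;> linarith
  -- the sum over the pairs
  have hsumPairs : D / (80 * K) * (8 * ((Γ + 2) * R))⁻¹ ≤
      ∑ u ∈ pairs, (u.1 : ℝ)⁻¹ * (u.2 : ℝ)⁻¹ := by
    rw [hpairs, sum_sigma]
    simp only [← mul_sum]
    have hmid : 1 ≤ ∑ q ∈ Mid, (q : ℝ)⁻¹ := by
      have h := (abs_le.1 (hmass (3 * R) (Γ * R) (by linarith)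
        (mul_le_mul_of_nonneg_right hΓ3 (by linarith)))).1
      rw [← hMid, Real.log_mul (by linarith) (by linarith),
        Real.log_mul (by norm_num) (by linarith),
        hΓ, Real.log_mul (by norm_num) (Real.exp_ne_zero _), Real.log_exp] at h
      linarith
    refine le_trans ?_ (sum_le_sum (f := fun q : ℕ => (q : ℝ)⁻¹ *
      (D / (80 * K) * (8 * ((Γ + 2) * R))⁻¹)) fun q hq => mul_le_mul_of_nonneg_left
      (le_of_le_of_eq ?_ (sum_biUnion fun b hb' b' hb'' hne => ?_).symm) (by positivity))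
    · rw [← sum_mul]
      exact le_mul_of_one_le_left (mul_nonneg (by positivity) (by
        have : 0 ≤ (Γ + 2) * R := mul_nonneg (by linarith) (by linarith)
        positivity)) hmid
    · refine le_trans ?_ (card_nsmul_le_sum B₅ _ ((8 * ((Γ + 2) * R))⁻¹) fun b hbm => ?_)
      · rw [nsmul_eq_mul]
        exact mul_le_mul_of_nonneg_right hB₅card (by
          have : 0 ≤ (Γ + 2) * R := mul_nonneg (by linarith) (by linarith)
          positivity)
      obtain ⟨h2R, hhi, -⟩ := hrange q hq b hbm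
      rw [hW]
      refine le_trans ?_ (hlow _ (by linarith))
      exact inv_anti₀ (by linarith) (by linarith)
    · rw [mem_coe] at hb' hb''
      refine disjoint_left.2 fun x hx hx' => ?_
      rw [hW] at hx hx'
      obtain ⟨-, x1, x2⟩ := mem_logPrimes.1 hx
      obtain ⟨-, y1, y2⟩ := mem_logPrimes.1 hx'
      obtain ⟨-, -, t1⟩ := hrange q hq b hb'
      obtain ⟨-, -, t2⟩ := hrange q hq b' hb''
      have m1 := hb'
      have m2 := hb''
      rw [hB₅, mem_filter] at m1 m2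
      have h5 : b + 5 ≤ b' ∨ b' + 5 ≤ b := by
        have := m1.2
        have := m2.2
        omega
      rw [hlowdef] at x1 x2 y1 y2 t1 t2
      simp only at x1 x2 y1 y2 t1 t2
      rcases h5 with h | h
      · have h' : (b : ℝ) + 5 ≤ b' := by exact_mod_cast h
        have := mul_le_mul_of_nonneg_right h' (show 0 ≤ w by linarith)
        linarith
      · have h' : (b' : ℝ) + 5 ≤ b := by exact_mod_cast h
        have := mul_le_mul_of_nonneg_right h' (show 0 ≤ w by linarith)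
        linarith
  -- the weights of the pairs
  obtain ⟨q₀, hq₀⟩ : ∃ q₀, q₀ = (Real.exp (2 * (Real.log (Γ + 2) + C₁)))⁻¹ := ⟨_, rfl⟩
  have hweight : ∀ u ∈ pairs, q₀ * ((u.1 : ℝ)⁻¹ * (u.2 : ℝ)⁻¹) ≤ setWeight P {u.2, u.1} := by
    intro u hu
    obtain ⟨-, -, hne, -⟩ := hgood u hu
    rw [setWeight, prod_pair hne.symm, mul_comm q₀, mul_comm (u.1 : ℝ)⁻¹]
    refine mul_le_mul_of_nonneg_left ?_ (by positivity)
    have hhalf : ∀ p ∈ P, (p : ℝ)⁻¹ ≤ 1 / 2 := fun p hp => by
      rw [one_div]; exact inv_anti₀ two_pos (Nat.ofNat_le_cast.2 (hPp p hp).two_le)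
    have hle : ∀ p ∈ P \ {u.2, u.1}, Real.exp (-(2 * (p : ℝ)⁻¹)) ≤ 1 - (p : ℝ)⁻¹ := fun p hp => by
      have h := hhalf p (mem_sdiff.1 hp).1
      have h0 : 0 ≤ (p : ℝ)⁻¹ := by positivity
      rw [Real.exp_neg, inv_le_iff_one_le_mul₀ (Real.exp_pos _)]
      refine le_trans ?_ (mul_le_mul_of_nonneg_left (Real.add_one_le_exp _) (by linarith))
      have := mul_le_mul_of_nonneg_left h h0
      linarith
    refine le_trans ?_ (prod_le_prod (fun p _ => Real.exp_nonneg _) hle)
    rw [← Real.exp_sum, hq₀, ← Real.exp_neg, Real.exp_le_exp, sum_neg_distrib, neg_le_neg_iff,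
      ← mul_sum]
    refine mul_le_mul_of_nonneg_left ((sum_le_sum_of_subset_of_nonneg sdiff_subset
      fun p _ _ => by positivity).trans ?_) two_pos.le
    have h := (abs_le.1 (hmass R ((Γ + 2) * R) (by linarith)
      (le_mul_of_one_le_left (by linarith) (by linarith)))).2
    rw [← hP, Real.log_mul (by linarith) (by linarith)] at h
    linarith
  -- two pairs for one set
  obtain ⟨sets, hsets⟩ : ∃ sets : Finset (Finset ℕ),
      sets = pairs.image fun u => {u.2, u.1} := ⟨_, rfl⟩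
  have hsetsP : sets ⊆ P.powerset := fun S hS => by
    obtain ⟨u, hu, rfl⟩ := mem_image.1 (hsets ▸ hS)
    obtain ⟨h1, h2, -, -⟩ := hgood u hu
    exact mem_powerset.2 (insert_subset h2 (singleton_subset_iff.2 h1))
  have htwo : ∑ u ∈ pairs, setWeight P {u.2, u.1} ≤ 2 * ∑ S ∈ sets, setWeight P S := by
    rw [← sum_fiberwise_of_maps_to (t := sets) (g := fun u : Σ _ : ℕ, ℕ => ({u.2, u.1} : Finset ℕ))
      fun u hu => hsets ▸ mem_image_of_mem _ hu, mul_sum]
    refine sum_le_sum fun S hS => ?_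
    rw [sum_congr rfl fun u hu => by rw [(mem_filter.1 hu).2], sum_const, nsmul_eq_mul]
    refine mul_le_mul_of_nonneg_right ?_ (setWeight_nonneg hPp S)
    obtain ⟨u₀, hu₀, rfl⟩ := mem_image.1 (hsets ▸ hS)
    have hsub : pairs.filter (fun u : Σ _ : ℕ, ℕ => ({u.2, u.1} : Finset ℕ) = {u₀.2, u₀.1}) ⊆
        {u₀, ⟨u₀.2, u₀.1⟩} := fun u hu => by
      obtain ⟨hu, he⟩ := mem_filter.1 hu
      have hne := (hgood u hu).2.2.1
      have e1 : u.1 = u₀.2 ∨ u.1 = u₀.1 := by
        have : u.1 ∈ ({u₀.2, u₀.1} : Finset ℕ) := he ▸ by simp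
        simpa using this
      have e2 : u.2 = u₀.2 ∨ u.2 = u₀.1 := by
        have : u.2 ∈ ({u₀.2, u₀.1} : Finset ℕ) := he ▸ by simp
        simpa using this
      obtain ⟨a, b⟩ := u
      obtain ⟨a₀, b₀⟩ := u₀
      simp only at e1 e2 hne
      simp only [mem_insert, mem_singleton, Sigma.mk.injEq, heq_eq_eq]
      omega
    exact_mod_cast (card_le_card hsub).trans card_le_two
  have hfinal : ∑ S ∈ sets, setWeight P S ≤ blockMean P fun B => closeInd (A ∪ B) := by
    refine le_trans (le_of_eq ?_) (sum_le_sum_of_subset_of_nonneg hsetsP fun S _ _ =>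
      mul_nonneg (setWeight_nonneg hPp S) (closeInd_nonneg _))
    refine sum_congr rfl fun S hS => ?_
    obtain ⟨u, hu, rfl⟩ := mem_image.1 (hsets ▸ hS)
    beta_reduce
    rw [closeInd_eq_one (hgood u hu).2.2.2, mul_one]
  have hq00 : 0 ≤ q₀ := hq₀ ▸ by positivity
  have h1 := mul_le_mul_of_nonneg_left hsumPairs hq00
  rw [mul_sum] at h1
  have h2 := (h1.trans (sum_le_sum hweight)).trans
    (htwo.trans (mul_le_mul_of_nonneg_left hfinal two_pos.le))
  rw [← hq₀, div_le_iff₀ (by positivity)]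
  have e : q₀ * (D / (80 * K) * (8 * ((Γ + 2) * R))⁻¹) =
      q₀ / (80 * K * (8 * (Γ + 2) * 20)) := by
    rw [hR]
    field_simp
  rw [e, div_le_iff₀ (by positivity)] at h2
  linarith

/-- `h + (h + 1) + ⋯ + (h + j - 1)`. -/
def rangeLength (h j : ℕ) : ℝ := ∑ i ∈ range j, ((h : ℝ) + i)

theorem rangeLength_mono (h : ℕ) {i j : ℕ} (hij : i ≤ j) : rangeLength h i ≤ rangeLength h j :=
  sum_le_sum_of_subset_of_nonneg (range_mono hij) fun _ _ _ => by positivity

theorem rangeLength_succ (h j : ℕ) : rangeLength h (j + 1) = rangeLength h j + ((h : ℝ) + j) :=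
  sum_range_succ _ j

/-- The top of the `j`-th range. -/
def rangeTop (h J j : ℕ) : ℝ := Real.exp (J + rangeLength h J - rangeLength h j)

/-- The primes of the `j`-th range. -/
def rangePrimes (h J j : ℕ) : Finset ℕ := logPrimes (rangeTop h J (j + 1)) (rangeTop h J j)

theorem rangeTop_anti (h J : ℕ) {i j : ℕ} (hij : i ≤ j) : rangeTop h J j ≤ rangeTop h J i :=
  Real.exp_le_exp.2 (by linarith [rangeLength_mono h hij])

theorem add_one_le_rangeTop (h : ℕ) {J j : ℕ} (hj : j ≤ J) : (J : ℝ) + 1 ≤ rangeTop h J j :=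
  (Real.add_one_le_exp _).trans
    (Real.exp_le_exp.2 (by linarith [rangeLength_mono h hj]))

/-- The exceptional sets are rare. -/
theorem exists_typical : ∃ h : ℕ, ∃ K : ℝ, 1 ≤ K ∧ ∃ J₀ : ℕ, ∀ J, J₀ ≤ J →
    ∃ f : Finset ℕ → ℝ, 1 / 2 ≤ blockMean (upperPart (rangePrimes h J) J) f ∧
      ∀ A ⊆ upperPart (rangePrimes h J) J, f A ≤ 1 ∧ (0 < f A →
        ∑ p ∈ A, Real.log p ≤ 16 * rangeTop h J 0 ∧
          rangeTop h J 0 / (8 * K) ≤ ((binSet A (Real.log 2 / 2)).card : ℝ)) := by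
  classical
  obtain ⟨C₁, hC₁, hmass⟩ := exists_sum_logPrimes
  obtain ⟨C₂, hC₂, hlogsum⟩ := exists_sum_logPrimes_log
  obtain ⟨CE, hCE, henergy⟩ := exists_mean_closeShare_le
  obtain ⟨κ, hκ⟩ : ∃ κ : ℝ, κ = 1 / 1600 := ⟨_, rfl⟩
  have hκ1 : Real.exp (-κ) < 1 := Real.exp_lt_one_iff.2 (by linarith)
  obtain ⟨h, hh100, hh⟩ : ∃ h : ℕ, 100 ≤ h ∧
      Real.exp (C₁ / 40 - κ * h) * (1 - Real.exp (-κ))⁻¹ ≤ 1 / 8 := by
    have h1 : Tendsto (fun h : ℕ => Real.exp (C₁ / 40 - κ * h) * (1 - Real.exp (-κ))⁻¹) atTop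
        (𝓝 0) := by
      have h2 : Tendsto (fun h : ℕ => -(κ * (h : ℝ)) + C₁ / 40) atTop atBot :=
        tendsto_atBot_add_const_right _ _ (tendsto_neg_atTop_atBot.comp
          (tendsto_natCast_atTop_atTop.const_mul_atTop (by linarith)))
      have h3 := (Real.tendsto_exp_atBot.comp h2).mul_const ((1 - Real.exp (-κ))⁻¹)
      rw [zero_mul] at h3
      refine h3.congr fun h => ?_
      simp only [Function.comp_apply]
      ring_nf
    obtain ⟨n, hn1, hn2⟩ := ((eventually_ge_atTop 100).and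
      (h1.eventually (ge_mem_nhds (show (0 : ℝ) < 1 / 8 by norm_num)))).exists
    exact ⟨n, hn1, hn2⟩
  obtain ⟨K, hK⟩ : ∃ K, K = 1 + CE * (2 * Real.exp h) := ⟨_, rfl⟩
  have hK1 : 1 ≤ K := hK ▸ le_add_of_nonneg_right (by positivity)
  refine ⟨h, K, hK1, ⌈C₂⌉₊ + 1, fun J hJ => ?_⟩
  obtain ⟨D, hD⟩ : ∃ D, D = rangeTop h J 0 := ⟨_, rfl⟩
  obtain ⟨S, hS⟩ : ∃ S, S = rangeLength h := ⟨_, rfl⟩
  obtain ⟨Q, hQ⟩ : ∃ Q, Q = rangePrimes h J := ⟨_, rfl⟩
  obtain ⟨a, ha⟩ : ∃ a : ℕ → ℝ, a = fun j => 19 / 20 * S j := ⟨_, rfl⟩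
  rw [← hQ, ← hD]
  obtain ⟨P, hP⟩ : ∃ P, P = upperPart Q J := ⟨_, rfl⟩
  rw [← hP]
  have hJ1 : 1 ≤ J := by omega
  have hJC : C₂ ≤ (J : ℝ) := (Nat.le_ceil C₂).trans (Nat.cast_le.2 (by omega))
  have hJ0 : (1 : ℝ) ≤ J := Nat.one_le_cast.2 hJ1
  have hDJ : (J : ℝ) + 1 ≤ D := hD ▸ add_one_le_rangeTop h (Nat.zero_le J)
  have hD0 : 0 < D := by linarith
  have hSj : ∀ j : ℕ, (h : ℝ) * j ≤ S j := fun j => by
    rw [hS, rangeLength]
    refine le_trans (le_of_eq ?_) (card_nsmul_le_sum _ _ (h : ℝ)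
      fun i _ => le_add_of_nonneg_right (Nat.cast_nonneg i))
    rw [card_range, nsmul_eq_mul, mul_comm]
  have hdis : ∀ i j, i < j → Disjoint (Q i) (Q j) := fun i j hij => by
    rw [hQ]
    exact (disjoint_logPrimes (rangeTop_anti h J (Nat.succ_le_of_lt hij))).symm
  have hQT : ∀ j, j < J → 1 ≤ rangeTop h J (j + 1) ∧
      ∀ p ∈ Q j, p.Prime ∧ rangeTop h J (j + 1) < Real.log p := fun j hj => by
    refine ⟨by linarith [add_one_le_rangeTop h (Nat.succ_le_of_lt hj)], fun p hp => ?_⟩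
    rw [hQ, rangePrimes, mem_logPrimes] at hp
    exact ⟨hp.1, hp.2.1⟩
  have hPp : ∀ p ∈ P, p.Prime := fun p hp => by
    obtain ⟨j, hj, hpj⟩ := mem_biUnion.1 (hP ▸ hp)
    exact ((hQT j (mem_range.1 hj)).2 p hpj).1
  have hPtop : P ⊆ logPrimes 0 D := fun p hp => by
    obtain ⟨j, hj, hpj⟩ := mem_biUnion.1 (hP ▸ hp)
    obtain ⟨hT, hT'⟩ := hQT j (mem_range.1 hj)
    rw [hQ, rangePrimes, mem_logPrimes] at hpj
    exact mem_logPrimes.2 ⟨hpj.1, by linarith [hpj.2.1],
      hD ▸ hpj.2.2.trans (rangeTop_anti h J (Nat.zero_le j))⟩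
  -- few primes in a range
  obtain ⟨fewInd, hfew⟩ : ∃ fewInd : ℕ → Finset ℕ → ℝ, fewInd = fun j A =>
      if ((A ∩ Q j).card : ℝ) < 19 / 20 * ((h : ℝ) + j) then 1 else 0 := ⟨_, rfl⟩
  have hfew0 : ∀ j A, 0 ≤ fewInd j A := fun j A => by rw [hfew]; dsimp only; split_ifs <;> norm_num
  have hfewsum : ∑ j ∈ range J, blockMean P (fewInd j) ≤ 1 / 8 := by
    refine le_trans ?_ hh
    refine le_trans (sum_le_sum (g := fun j : ℕ =>
      Real.exp (C₁ / 40 - κ * h) * Real.exp (-κ) ^ j) fun j hj => ?_) ?_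
    · have hj' := mem_range.1 hj
      have hQP : Q j ⊆ P := hP ▸ subset_biUnion_of_mem Q hj
      rw [hfew]
      refine (blockMean_few_le hPp hQP (show (0 : ℝ) < 39 / 40 by norm_num) (by norm_num) _).trans
        ?_
      have hm := (abs_le.1 (hmass _ _
        (by linarith [add_one_le_rangeTop h (Nat.succ_le_of_lt hj')])
        (rangeTop_anti h J (Nat.le_succ j)))).1
      rw [show logPrimes (rangeTop h J (j + 1)) (rangeTop h J j) = Q j by rw [hQ]; rfl, rangeTop,
        rangeTop, Real.log_exp, Real.log_exp, rangeLength_succ] at hm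
      rw [← Real.exp_nat_mul, ← Real.exp_add, Real.exp_le_exp, hκ]
      have hs := Real.one_sub_inv_le_log_of_pos (show (0 : ℝ) < 39 / 40 by norm_num)
      rw [show (1 : ℝ) - (39 / 40)⁻¹ = -(1 / 39) by norm_num] at hs
      have h1 := mul_le_mul_of_nonneg_left hs
        (show 0 ≤ 19 / 20 * ((h : ℝ) + j) by positivity)
      have := Nat.cast_nonneg (α := ℝ) h
      have := Nat.cast_nonneg (α := ℝ) j
      linarith
    · rw [← mul_sum]
      refine mul_le_mul_of_nonneg_left ?_ (Real.exp_nonneg _)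
      rw [geom_sum_eq hκ1.ne, ← neg_div_neg_eq, neg_sub, neg_sub, div_eq_mul_inv]
      exact mul_le_of_le_one_left (inv_nonneg.2 (by linarith))
        (sub_le_self _ (by positivity))
  -- the energy
  have hlog3 := log_three_bound
  have henergy' : blockMean P (fun A => if IsDense Q J a A then closeShare A (Real.log 2 / 2)
      else 0) ≤ K / D := by
    rw [hP]
    refine (henergy Q J a (fun j => rangeTop h J (j + 1)) _ hdis hQT
      (by linarith [Real.log_two_lt_d9])).trans ?_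
    have hexp : ∀ j, Real.exp (-(a j * Real.log 3)) ≤ Real.exp (-(51 / 50 * S j)) := fun j => by
      refine Real.exp_le_exp.2 (neg_le_neg ?_)
      have h0 : 0 ≤ S j := le_trans (by positivity) (hSj j)
      have := mul_le_mul_of_nonneg_left hlog3 (show 0 ≤ 19 / 20 * S j by positivity)
      rw [ha]
      linarith
    have hD' : D = Real.exp ((J : ℝ) + S J) := by
      rw [hD, rangeTop, hS, show rangeLength h 0 = 0 from sum_range_zero _, sub_zero]
    rw [hK, add_div, mul_div_assoc]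
    refine add_le_add ((hexp J).trans ?_) (mul_le_mul_of_nonneg_left ?_ hCE)
    · rw [one_div, hD', ← Real.exp_neg, Real.exp_le_exp]
      have h1 := hSj J
      have h2 := mul_le_mul_of_nonneg_right (Nat.ofNat_le_cast.2 hh100 : (100 : ℝ) ≤ h)
        (Nat.cast_nonneg J)
      linarith
    · refine le_trans (sum_le_sum (g := fun j : ℕ => Real.exp h / D * Real.exp (-1) ^ j)
        fun j hj => ?_) ?_
      · refine (div_le_div_of_nonneg_right (hexp j)
          (show 0 ≤ rangeTop h J (j + 1) from Real.exp_nonneg _)).trans ?_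
        rw [rangeTop]
        rw [← Real.exp_sub, hD', ← Real.exp_sub, ← Real.exp_nat_mul, ← Real.exp_add,
          Real.exp_le_exp, ← hS]
        have h1 := hSj j
        have h2 := mul_le_mul_of_nonneg_right (Nat.ofNat_le_cast.2 hh100 : (100 : ℝ) ≤ h)
          (Nat.cast_nonneg j)
        have e : S (j + 1) = S j + ((h : ℝ) + j) := by
          rw [hS, rangeLength_succ]
        rw [e]
        linarith
      · rw [← mul_sum, mul_comm (2 : ℝ), mul_div_right_comm]
        refine mul_le_mul_of_nonneg_left ?_ (by positivity)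
        refine le_trans (sum_le_sum fun j _ => pow_le_pow_left₀ (Real.exp_nonneg _) ?_ j)
          (sum_geometric_two_le J)
        rw [Real.exp_neg, one_div]
        exact inv_anti₀ two_pos (by linarith [Real.add_one_le_exp 1])
  -- the size
  have hsize : blockMean P (fun A => ∑ p ∈ A, Real.log p) ≤ 2 * D := by
    rw [blockMean_sum_mem]
    refine (sum_le_sum_of_subset_of_nonneg hPtop fun p _ _ => mul_nonneg (by positivity)
      (Real.log_natCast_nonneg p)).trans ((hlogsum 0 D hD0.le).trans ?_)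
    linarith
  obtain ⟨typical, htyp⟩ : ∃ typical : Finset ℕ → Prop, typical = fun A => IsDense Q J a A ∧
      closeShare A (Real.log 2 / 2) ≤ 8 * K / D ∧ ∑ p ∈ A, Real.log p ≤ 16 * D := ⟨_, rfl⟩
  refine ⟨fun A => if typical A then 1 else 0, ?_, fun A hA =>
    ⟨by dsimp only; split_ifs <;> norm_num, fun hpos => ?_⟩⟩
  swap
  · dsimp only at hpos
    split_ifs at hpos with ht
    · rw [htyp] at ht
      obtain ⟨-, hshare, hs⟩ := ht
      refine ⟨hs, ?_⟩
      have h1 := (inv_closeShare_le (A := A) (w := Real.log 2 / 2)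
        (by linarith [Real.log_two_gt_d9])).trans (mul_le_mul_of_nonneg_right hshare
          (Nat.cast_nonneg _))
      rw [div_mul_eq_mul_div, le_div_iff₀ hD0, one_mul] at h1
      rw [div_le_iff₀ (by linarith)]
      linarith
    · exact absurd hpos (lt_irrefl 0)
  have hpt : ∀ A ⊆ P, (1 : ℝ) - ∑ j ∈ range J, fewInd j A -
      D / (8 * K) * (if IsDense Q J a A then closeShare A (Real.log 2 / 2) else 0) -
        (16 * D)⁻¹ * ∑ p ∈ A, Real.log p ≤ if typical A then 1 else 0 := fun A hA => by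
    have n1 : 0 ≤ ∑ j ∈ range J, fewInd j A := sum_nonneg fun j _ => hfew0 j A
    have n2 : 0 ≤ D / (8 * K) *
        (if IsDense Q J a A then closeShare A (Real.log 2 / 2) else 0) := by
      refine mul_nonneg (by positivity) ?_
      split_ifs
      · rw [closeShare]; positivity
      · exact le_rfl
    have n3 : 0 ≤ (16 * D)⁻¹ * ∑ p ∈ A, Real.log p :=
      mul_nonneg (by positivity) (sum_nonneg fun p _ => Real.log_natCast_nonneg p)
    by_cases ht : typical A
    · rw [if_pos ht]; linarith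
    rw [if_neg ht]
    by_cases hd : IsDense Q J a A
    · rw [if_pos hd]
      rw [htyp] at ht
      simp only [hd, true_and, not_and_or, not_le] at ht
      rcases ht with hh' | hh'
      · have := mul_le_mul_of_nonneg_left hh'.le (show 0 ≤ D / (8 * K) by positivity)
        rw [show D / (8 * K) * (8 * K / D) = 1 by field_simp] at this
        linarith
      · have := mul_le_mul_of_nonneg_left hh'.le (show (0 : ℝ) ≤ (16 * D)⁻¹ by positivity)
        rw [inv_mul_cancel₀ (by positivity)] at this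
        rw [if_pos hd] at n2
        linarith
    · have hone : 1 ≤ ∑ j ∈ range J, fewInd j A := by
        by_contra hlt
        refine hd fun j hj => ?_
        have hj' := Nat.lt_succ_iff.1 (mem_range.1 hj)
        rw [upperPart, inter_biUnion, card_biUnion, Nat.cast_sum]
        · simp only [ha, hS, rangeLength]
          rw [mul_sum]
          refine sum_le_sum fun i hi => ?_
          by_contra hfail
          have hi' : i ∈ range J := mem_range.2 ((mem_range.1 hi).trans_le hj')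
          refine hlt (le_trans ?_ (single_le_sum (f := fun j => fewInd j A)
            (fun j _ => hfew0 j A) hi'))
          rw [hfew]
          simp only
          rw [if_pos (not_le.1 hfail)]
        · intro i _ i' _ hne
          rcases lt_or_gt_of_ne hne with hl | hl
          · exact disjoint_of_subset_left inter_subset_right
              (disjoint_of_subset_right inter_subset_right (hdis i i' hl))
          · exact disjoint_of_subset_left inter_subset_right
              (disjoint_of_subset_right inter_subset_right (hdis i' i hl).symm)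
      linarith
  refine le_trans ?_ (blockMean_mono hPp hpt)
  rw [blockMean_sub, blockMean_sub, blockMean_sub, blockMean_const, blockMean_sum,
    blockMean_const_mul, blockMean_const_mul]
  have h1 := mul_le_mul_of_nonneg_left henergy' (show 0 ≤ D / (8 * K) by positivity)
  have h2 := mul_le_mul_of_nonneg_left hsize (show (0 : ℝ) ≤ (16 * D)⁻¹ by positivity)
  rw [show D / (8 * K) * (K / D) = 1 / 8 by field_simp] at h1
  rw [show (16 * D)⁻¹ * (2 * D) = 1 / 8 by field_simp; ring] at h2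
  linarith

/-- **A block with close divisors with probability bounded below.** -/
theorem exists_block : ∃ ρ : ℝ, 0 < ρ ∧ ∀ X : ℝ, ∃ P : Finset ℕ,
    (∀ p ∈ P, p.Prime ∧ X < Real.log p) ∧ ρ ≤ blockMean P closeInd := by
  obtain ⟨C₁, v₀, hC₁, htop⟩ := exists_top_bound
  obtain ⟨h, K, hK, J₀, htyp⟩ := exists_typical
  obtain ⟨ρ, hρ⟩ : ∃ ρ, ρ = (Real.exp (2 * (Real.log (3 * Real.exp (C₁ + 1) + 2) + C₁)))⁻¹ /
      (2 * (80 * K * (8 * (3 * Real.exp (C₁ + 1) + 2) * 20))) := ⟨_, rfl⟩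
  have hρ0 : 0 < ρ := hρ ▸ by positivity
  refine ⟨ρ / 2, half_pos hρ0, fun X => ?_⟩
  obtain ⟨J, hJ1, hJ2⟩ : ∃ J : ℕ, J₀ ≤ J ∧ max X (max v₀ (80 * K)) ≤ (J : ℝ) :=
    ⟨max J₀ ⌈max X (max v₀ (80 * K))⌉₊, le_max_left _ _,
      (Nat.le_ceil _).trans (Nat.cast_le.2 (le_max_right _ _))⟩
  simp only [max_le_iff] at hJ2
  obtain ⟨hX, hv, hKJ⟩ := hJ2
  obtain ⟨f, hf, hfA⟩ := htyp J hJ1
  obtain ⟨D, hD⟩ : ∃ D, D = rangeTop h J 0 := ⟨_, rfl⟩
  have hDJ : (J : ℝ) + 1 ≤ D := hD ▸ add_one_le_rangeTop h (Nat.zero_le J)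
  obtain ⟨L, hL⟩ : ∃ L, L = upperPart (rangePrimes h J) J := ⟨_, rfl⟩
  obtain ⟨U, hU⟩ : ∃ U, U = logPrimes (20 * D) ((3 * Real.exp (C₁ + 1) + 2) * (20 * D)) := ⟨_, rfl⟩
  rw [← hL] at hf hfA
  have hLmem : ∀ p ∈ L, p.Prime ∧ X < Real.log p ∧ Real.log p ≤ D := fun p hp => by
    obtain ⟨j, hj, hpj⟩ := mem_biUnion.1 (hL ▸ hp)
    obtain ⟨h1, h2, h3⟩ := mem_logPrimes.1 hpj
    refine ⟨h1, ?_, hD ▸ h3.trans (rangeTop_anti h J (Nat.zero_le j))⟩
    linarith [add_one_le_rangeTop h (Nat.succ_le_of_lt (mem_range.1 hj))]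
  refine ⟨L ∪ U, fun p hp => ?_, ?_⟩
  · rcases mem_union.1 hp with hp | hp
    · exact ⟨(hLmem p hp).1, (hLmem p hp).2.1⟩
    · rw [hU, mem_logPrimes] at hp
      exact ⟨hp.1, by linarith [hp.2.1]⟩
  have hdisj : Disjoint L U := disjoint_left.2 fun p hp hp' => by
    rw [hU, mem_logPrimes] at hp'
    linarith [(hLmem p hp).2.2, hp'.2.1]
  rw [blockMean_union hdisj]
  have hLp : ∀ p ∈ L, p.Prime := fun p hp => (hLmem p hp).1
  have hUp : ∀ p ∈ U, p.Prime := fun p hp => prime_of_mem_logPrimes p (hU ▸ hp)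
  refine le_trans ?_ (blockMean_mono hLp (f := fun A => ρ * f A) fun A hA => ?_)
  · rw [blockMean_const_mul]
    have := mul_le_mul_of_nonneg_left hf hρ0.le
    linarith
  · obtain ⟨hle, hpos⟩ := hfA A hA
    rcases le_or_gt (f A) 0 with h0 | h0
    · exact le_trans (mul_nonpos_of_nonneg_of_nonpos hρ0.le h0)
        (blockMean_nonneg hUp fun B _ => closeInd_nonneg _)
    · obtain ⟨hs, hb⟩ := hpos h0
      refine le_trans (mul_le_of_le_one_right hρ0.le hle) ?_
      rw [hρ, hU]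
      exact htop D A K hK (by linarith) (by linarith) (fun p hp => (hLmem p (hA hp)).2.2)
        (hD ▸ hs) (hD ▸ hb)

end FA.CloseDivisors

end
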