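import Fermat.Agent.ErdosKac.Mertens
import Fermat.Agent.LogChowla.Primes

/-!
# Sums of reciprocals of primes over ranges of their logarithms

For `2 ≤ a ≤ b` the sum of `1 / p` over `a < log p ≤ b` is `log (b / a) + O (1)`; over a range of
length `4` above `T` it is `O (1 / T)`; and for large `v` over `v < log p ≤ v + log 2 + exp (-v)` it
is at least `1 / (8 (v + 1))`.
-/

set_option autoImplicit false

noncomputable section

namespace FA.CloseDivisors

open Finset Filter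
open FA.ErdosKac (primesUpTo mem_primesUpTo recipSum)
open scoped Topology

/-- The primes with `a < log p ≤ b`. -/
def logPrimes (a b : ℝ) : Finset ℕ :=
  (primesUpTo ⌊Real.exp b⌋₊).filter fun p : ℕ => a < Real.log p

theorem mem_logPrimes {a b : ℝ} {p : ℕ} :
    p ∈ logPrimes a b ↔ p.Prime ∧ a < Real.log p ∧ Real.log p ≤ b := by
  rw [logPrimes, mem_filter, mem_primesUpTo]
  constructor
  · rintro ⟨⟨hp, h⟩, ha⟩
    refine ⟨hp, ha, ?_⟩
    rw [Real.log_le_iff_le_exp (Nat.cast_pos.2 hp.pos)]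
    exact (Nat.cast_le.2 h).trans (Nat.floor_le (Real.exp_nonneg _))
  · rintro ⟨hp, ha, hb⟩
    refine ⟨⟨hp, Nat.le_floor ?_⟩, ha⟩
    rwa [← Real.log_le_iff_le_exp (Nat.cast_pos.2 hp.pos)]

theorem prime_of_mem_logPrimes {a b : ℝ} : ∀ p ∈ logPrimes a b, p.Prime :=
  fun _ hp => (mem_logPrimes.1 hp).1

theorem logPrimes_mono {a a' b b' : ℝ} (ha : a' ≤ a) (hb : b ≤ b') :
    logPrimes a b ⊆ logPrimes a' b' := fun _ hp =>
  mem_logPrimes.2 ⟨(mem_logPrimes.1 hp).1, ha.trans_lt (mem_logPrimes.1 hp).2.1,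
    (mem_logPrimes.1 hp).2.2.trans hb⟩

theorem disjoint_logPrimes {a b a' b' : ℝ} (h : b ≤ a') :
    Disjoint (logPrimes a b) (logPrimes a' b') :=
  disjoint_left.2 fun p hp hp' => by
    have h1 := (mem_logPrimes.1 hp).2.2
    have h2 := (mem_logPrimes.1 hp').2.1
    linarith

theorem exists_sum_logPrimes : ∃ C : ℝ, 0 ≤ C ∧ ∀ a b : ℝ, 2 ≤ a → a ≤ b →
    |∑ p ∈ logPrimes a b, (p : ℝ)⁻¹ - (Real.log b - Real.log a)| ≤ C := by
  obtain ⟨C, hC⟩ := ErdosKac.exists_abs_recipSum_sub_le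
  have hC0 : 0 ≤ C := (abs_nonneg _).trans (hC 2 le_rfl)
  refine ⟨2 * C + 2, by linarith, fun a b ha hab => ?_⟩
  have hscale : ∀ x : ℝ, 2 ≤ x →
      |recipSum ⌊Real.exp x⌋₊ - Real.log x| ≤ C + 1 := fun x hx => by
    obtain ⟨n, hn⟩ : ∃ n, n = ⌊Real.exp x⌋₊ := ⟨_, rfl⟩
    have hn2 : 2 ≤ n := hn ▸ Nat.le_floor (by push_cast; linarith [Real.add_one_le_exp x])
    have hn0 : (0 : ℝ) < n := Nat.cast_pos.2 (by omega)
    have h1 : Real.log n ≤ x := by
      rw [Real.log_le_iff_le_exp hn0, hn]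
      exact Nat.floor_le (Real.exp_nonneg _)
    have h2 : x ≤ Real.log 2 + Real.log n := by
      rw [← Real.log_mul two_ne_zero hn0.ne', Real.le_log_iff_exp_le (by positivity)]
      have h := (Nat.lt_floor_add_one (Real.exp x)).le
      rw [← hn] at h
      have : (2 : ℝ) ≤ n := Nat.ofNat_le_cast.2 hn2
      linarith
    have h3 : x / 2 ≤ Real.log n := by linarith [Real.log_two_lt_d9]
    have h4 := Real.log_le_log (by linarith) h3
    have h5 := Real.log_le_log (by linarith) h1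
    rw [Real.log_div (by linarith) two_ne_zero] at h4
    obtain ⟨h6, h7⟩ := abs_le.1 (hC n hn2)
    rw [← hn, abs_le]
    constructor <;> linarith [Real.log_two_lt_d9]
  have hsplit : (primesUpTo ⌊Real.exp b⌋₊).filter (fun p : ℕ => ¬a < Real.log p) =
      primesUpTo ⌊Real.exp a⌋₊ := by
    ext p
    simp only [mem_filter, mem_primesUpTo, not_lt]
    constructor
    · rintro ⟨⟨hp, -⟩, h⟩
      refine ⟨hp, Nat.le_floor ?_⟩
      rwa [← Real.log_le_iff_le_exp (Nat.cast_pos.2 hp.pos)]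
    · rintro ⟨hp, h⟩
      refine ⟨⟨hp, h.trans (Nat.floor_le_floor (Real.exp_le_exp.2 hab))⟩, ?_⟩
      rw [Real.log_le_iff_le_exp (Nat.cast_pos.2 hp.pos)]
      exact (Nat.cast_le.2 h).trans (Nat.floor_le (Real.exp_nonneg _))
  have e : ∑ p ∈ logPrimes a b, (p : ℝ)⁻¹ =
      recipSum ⌊Real.exp b⌋₊ - recipSum ⌊Real.exp a⌋₊ := by
    rw [eq_sub_iff_add_eq, recipSum, recipSum, logPrimes, ← hsplit, sum_filter_add_sum_filter_not]
  obtain ⟨h1, h2⟩ := abs_le.1 (hscale a ha)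
  obtain ⟨h3, h4⟩ := abs_le.1 (hscale b (ha.trans hab))
  rw [e, abs_le]
  constructor <;> linarith

/-- `∑ log p / p` up to `exp b`. -/
theorem exists_sum_logPrimes_log : ∃ C : ℝ, 0 ≤ C ∧ ∀ a b : ℝ, 0 ≤ b →
    ∑ p ∈ logPrimes a b, (p : ℝ)⁻¹ * Real.log p ≤ b + C := by
  obtain ⟨C, hC⟩ := ErdosKac.exists_abs_sum_log_div_sub_le
  refine ⟨C, (abs_nonneg _).trans (hC 1 le_rfl), fun a b hb => ?_⟩
  obtain ⟨n, hn⟩ : ∃ n, n = ⌊Real.exp b⌋₊ := ⟨_, rfl⟩
  have hn1 : 1 ≤ n := hn ▸ Nat.one_le_floor_iff (Real.exp b) |>.2 (Real.one_le_exp hb)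
  have hlog : Real.log n ≤ b := by
    rw [Real.log_le_iff_le_exp (Nat.cast_pos.2 hn1), hn]
    exact Nat.floor_le (Real.exp_nonneg _)
  refine le_trans (sum_le_sum_of_subset_of_nonneg (t := primesUpTo n)
    (hn ▸ filter_subset _ _) fun p _ _ => ?_) ?_
  · exact mul_nonneg (by positivity) (Real.log_natCast_nonneg p)
  · simp only [inv_mul_eq_div]
    linarith [(abs_le.1 (hC n hn1)).2]

/-- **A short range, from above.** -/
theorem exists_short_range_le : ∃ C : ℝ, 0 ≤ C ∧ ∀ v T : ℝ, 1 ≤ T → ∀ S : Finset ℕ,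
    (∀ p ∈ S, p.Prime ∧ T < Real.log p ∧ v < Real.log p ∧ Real.log p ≤ v + 4) →
    ∑ p ∈ S, (p : ℝ)⁻¹ ≤ C / T := by
  refine ⟨Real.log 4 * Real.exp 4, by positivity, fun v T hT S hS => ?_⟩
  have hT0 : 0 < T := by linarith
  have hsum : ∀ p ∈ S, T * (p : ℝ)⁻¹ ≤ Real.exp (-v) * Real.log p := fun p hp => by
    obtain ⟨hpp, hpT, hpv, -⟩ := hS p hp
    have hp0 : (0 : ℝ) < p := Nat.cast_pos.2 hpp.pos
    have h : (p : ℝ)⁻¹ ≤ Real.exp (-v) := by
      rw [Real.exp_neg]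
      exact inv_anti₀ (Real.exp_pos _) ((Real.lt_log_iff_exp_lt hp0).1 hpv).le
    rw [mul_comm (Real.exp (-v))]
    exact mul_le_mul hpT.le h (by positivity) (by linarith)
  have hth : ∑ p ∈ S, Real.log p ≤ Real.log 4 * Real.exp (v + 4) := by
    refine le_trans ?_ (Chebyshev.theta_le_log4_mul_x (Real.exp_nonneg _))
    rw [Chebyshev.theta_eq_sum_Icc]
    refine sum_le_sum_of_subset_of_nonneg (fun p hp => ?_) fun p _ _ => Real.log_natCast_nonneg p
    obtain ⟨hpp, -, -, hpv⟩ := hS p hp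
    refine mem_filter.2 ⟨mem_Icc.2 ⟨Nat.zero_le _, Nat.le_floor ?_⟩, hpp⟩
    exact (Real.log_le_iff_le_exp (Nat.cast_pos.2 hpp.pos)).1 hpv
  have h := sum_le_sum hsum
  rw [← mul_sum, ← mul_sum] at h
  rw [le_div_iff₀ hT0, mul_comm]
  refine h.trans ((mul_le_mul_of_nonneg_left hth (Real.exp_nonneg _)).trans (le_of_eq ?_))
  rw [Real.exp_add, Real.exp_neg]
  field_simp

/-- **A short range, from below.** -/
theorem exists_short_range_ge : ∃ v₀ : ℝ, 2 ≤ v₀ ∧ ∀ v : ℝ, v₀ ≤ v →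
    (8 * (v + 1))⁻¹ ≤ ∑ p ∈ logPrimes v (v + Real.log 2 + Real.exp (-v)), (p : ℝ)⁻¹ := by
  obtain ⟨M₀, hM₀⟩ := eventually_atTop.1 LogChowla.eventually_card_dyadicPrimes_ge
  refine ⟨max 2 M₀, le_max_left _ _, fun v hv => ?_⟩
  obtain ⟨hv2, hvM⟩ := max_le_iff.1 hv
  obtain ⟨M, hM⟩ : ∃ M, M = ⌈Real.exp v⌉₊ := ⟨_, rfl⟩
  have hMe : Real.exp v ≤ M := hM ▸ Nat.le_ceil _
  have hMe' : (M : ℝ) < Real.exp v + 1 := hM ▸ Nat.ceil_lt_add_one (Real.exp_nonneg _)
  have hev := Real.add_one_le_exp v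
  have hM0 : M₀ ≤ M := by
    have h : (M₀ : ℝ) ≤ M := by linarith
    exact_mod_cast h
  have hMpos : (1 : ℝ) < M := by linarith
  have hsub : LogChowla.dyadicPrimes M ⊆ logPrimes v (v + Real.log 2 + Real.exp (-v)) :=
    fun p hp => by
      obtain ⟨hpp, h1, h2⟩ := LogChowla.mem_dyadicPrimes.1 hp
      have hp0 : (0 : ℝ) < p := Nat.cast_pos.2 hpp.pos
      refine mem_logPrimes.2 ⟨hpp, ?_, ?_⟩
      · rw [Real.lt_log_iff_exp_lt hp0]
        exact lt_of_le_of_lt hMe (Nat.cast_lt.2 h1)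
      · rw [Real.log_le_iff_le_exp hp0, Real.exp_add, Real.exp_add, Real.exp_log two_pos]
        have h3 : (p : ℝ) ≤ 2 * M := by exact_mod_cast h2
        refine h3.trans (le_trans (show 2 * (M : ℝ) ≤ Real.exp v * 2 * (1 + Real.exp (-v)) from ?_)
          (mul_le_mul_of_nonneg_left (by linarith [Real.add_one_le_exp (Real.exp (-v))])
            (by positivity)))
        rw [mul_add, mul_one, Real.exp_neg, mul_right_comm (Real.exp v) 2 (Real.exp v)⁻¹,
          mul_inv_cancel₀ (Real.exp_pos v).ne', one_mul]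
        linarith
  refine le_trans ?_ (sum_le_sum_of_subset_of_nonneg hsub fun p _ _ => by positivity)
  refine le_trans ?_ (card_nsmul_le_sum _ _ ((2 * (M : ℝ))⁻¹) fun p hp => ?_)
  · rw [nsmul_eq_mul]
    refine le_trans ?_ (mul_le_mul_of_nonneg_right (hM₀ M hM0) (by positivity))
    have hlM : Real.log M ≤ v + 1 := by
      rw [Real.log_le_iff_le_exp (by linarith), Real.exp_add]
      have h2 := mul_le_mul_of_nonneg_left Real.exp_one_gt_d9.le (Real.exp_nonneg v)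
      linarith
    have hlM0 : 0 < Real.log M := Real.log_pos hMpos
    rw [show (M : ℝ) / (4 * Real.log M) * (2 * (M : ℝ))⁻¹ = (8 * Real.log M)⁻¹ by field_simp; ring]
    exact inv_anti₀ (by positivity) (by linarith)
  · obtain ⟨hpp, -, h2⟩ := LogChowla.mem_dyadicPrimes.1 hp
    exact inv_anti₀ (Nat.cast_pos.2 hpp.pos) (by exact_mod_cast h2)

end FA.CloseDivisors

end
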