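import Fermat.Agent.CloseDivisors.Measure
import Fermat.Agent.CloseDivisors.PrimeRanges
import Fermat.Agent.Korobov.Energy

/-!
# The close pairs of signed sums

A sign on `A` is a pair of disjoint subsets `(B, C)`, with sum `∑_B log p - ∑_C log p`. Two signs
which differ first in the `j`-th range of primes have close sums only if one prime there lies in a
range of bounded length, so with probability `O (1 / T_j)`: when `A` has at least `a_j` primes above
the `j`-th range for each `j`, the mean of the number of close pairs over `9 ^ |A|` is at most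
`3 ^ (-a_J) + O (∑_j 3 ^ (-a_j) / T_j)`.
-/

set_option autoImplicit false

noncomputable section

namespace FA.CloseDivisors

open Finset

/-- The pairs of disjoint subsets. -/
def signs (A : Finset ℕ) : Finset (Finset ℕ × Finset ℕ) :=
  (A.powerset ×ˢ A.powerset).filter fun σ => Disjoint σ.1 σ.2

theorem mem_signs {A : Finset ℕ} {σ : Finset ℕ × Finset ℕ} :
    σ ∈ signs A ↔ σ.1 ⊆ A ∧ σ.2 ⊆ A ∧ Disjoint σ.1 σ.2 := by
  rw [signs, mem_filter, mem_product, mem_powerset, mem_powerset, and_assoc]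

theorem card_signs (A : Finset ℕ) : (signs A).card = 3 ^ A.card := by
  have h : ∀ B ∈ A.powerset,
      ((signs A).filter fun σ => σ.1 = B).card = 2 ^ (A \ B).card := fun B hB => by
    rw [← card_powerset]
    refine card_nbij' (fun σ => σ.2) (fun C => (B, C)) (fun σ hσ => ?_) (fun C hC => ?_)
      (fun σ hσ => ?_) fun C _ => rfl
    · rw [mem_coe, mem_filter, mem_signs] at hσ
      rw [mem_coe, mem_powerset, subset_sdiff]
      exact ⟨hσ.1.2.1, (hσ.2 ▸ hσ.1.2.2).symm⟩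
    · rw [mem_coe, mem_powerset, subset_sdiff] at hC
      rw [mem_coe, mem_filter, mem_signs]
      exact ⟨⟨mem_powerset.1 hB, hC.1, hC.2.symm⟩, rfl⟩
    · rw [mem_coe, mem_filter] at hσ
      exact Prod.ext hσ.2.symm rfl
  rw [card_eq_sum_card_fiberwise (f := fun σ : Finset ℕ × Finset ℕ => σ.1) (t := A.powerset)
    fun σ hσ => mem_powerset.2 (mem_signs.1 hσ).1, sum_congr rfl h]
  have e := prod_add (fun _ : ℕ => 1) (fun _ => 2) A
  simp only [prod_const, one_pow, one_mul] at e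
  exact e.symm

/-- `∑_B log p - ∑_C log p`. -/
def signedLog (σ : Finset ℕ × Finset ℕ) : ℝ :=
  ∑ p ∈ σ.1, Real.log p - ∑ p ∈ σ.2, Real.log p

theorem abs_signedLog_le {A : Finset ℕ} {σ : Finset ℕ × Finset ℕ} (hσ : σ ∈ signs A) :
    |signedLog σ| ≤ ∑ p ∈ A, Real.log p := by
  obtain ⟨h1, h2, -⟩ := mem_signs.1 hσ
  have b1 := sum_le_sum_of_subset_of_nonneg h1 fun p _ _ => Real.log_natCast_nonneg p
  have b2 := sum_le_sum_of_subset_of_nonneg h2 fun p _ _ => Real.log_natCast_nonneg p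
  have c1 : 0 ≤ ∑ p ∈ σ.1, Real.log p := sum_nonneg fun p _ => Real.log_natCast_nonneg p
  have c2 : 0 ≤ ∑ p ∈ σ.2, Real.log p := sum_nonneg fun p _ => Real.log_natCast_nonneg p
  rw [signedLog, abs_le]
  constructor <;> linarith

/-- The pairs of signs which agree on `U`. -/
def agreePairs (A U : Finset ℕ) : Finset ((Finset ℕ × Finset ℕ) × Finset ℕ × Finset ℕ) :=
  (signs A ×ˢ signs A).filter fun q => q.1.1 ∩ U = q.2.1 ∩ U ∧ q.1.2 ∩ U = q.2.2 ∩ U

theorem card_agreePairs_le (A U : Finset ℕ) :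
    (agreePairs A U).card ≤ 3 ^ A.card * 3 ^ (A \ U).card := by
  rw [← card_signs, ← card_signs, ← card_product]
  refine card_le_card_of_injOn (fun q => (q.1, (q.2.1 \ U, q.2.2 \ U))) (fun q hq => ?_)
    fun q hq q' hq' h => ?_
  · rw [mem_coe, agreePairs, mem_filter, mem_product, mem_signs, mem_signs] at hq
    rw [mem_coe, mem_product, mem_signs, mem_signs]
    exact ⟨hq.1.1, sdiff_subset_sdiff hq.1.2.1 Subset.rfl, sdiff_subset_sdiff hq.1.2.2.1 Subset.rfl,
      disjoint_of_subset_left sdiff_subset (disjoint_of_subset_right sdiff_subset hq.1.2.2.2)⟩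
  · rw [mem_coe, agreePairs, mem_filter] at hq hq'
    simp only [Prod.mk.injEq] at h
    obtain ⟨h1, h2, h3⟩ := h
    refine Prod.ext h1 (Prod.ext ?_ ?_)
    · rw [← sdiff_union_inter q.2.1 U, ← sdiff_union_inter q'.2.1 U, h2, ← hq.2.1, ← hq'.2.1, h1]
    · rw [← sdiff_union_inter q.2.2 U, ← sdiff_union_inter q'.2.2 U, h3, ← hq.2.2, ← hq'.2.2, h1]

/-- The pairs with sums closer than `w`. -/
def closePairs (A : Finset ℕ) (w : ℝ) : Finset ((Finset ℕ × Finset ℕ) × Finset ℕ × Finset ℕ) :=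
  (signs A ×ˢ signs A).filter fun q => |signedLog q.1 - signedLog q.2| < w

/-- The union of the ranges above the `j`-th. -/
def upperPart (Q : ℕ → Finset ℕ) (j : ℕ) : Finset ℕ := (range j).biUnion Q

/-- The places of the signs of `p` in a pair. -/
def membership (p : ℕ) (q : (Finset ℕ × Finset ℕ) × Finset ℕ × Finset ℕ) :
    (Bool × Bool) × Bool × Bool :=
  ((decide (p ∈ q.1.1), decide (p ∈ q.1.2)), (decide (p ∈ q.2.1), decide (p ∈ q.2.2)))

/-- The pairs on `A` which `p` can make close. -/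
def windowPairs (A U : Finset ℕ) (w : ℝ) (p : ℕ) :
    Finset ((Finset ℕ × Finset ℕ) × Finset ℕ × Finset ℕ) :=
  (agreePairs A U).filter fun q => ∃ c ∈ ({-2, -1, 1, 2} : Finset ℤ),
    |signedLog q.1 - signedLog q.2 + c * Real.log p| < w

theorem signedLog_erase (σ : Finset ℕ × Finset ℕ) (p : ℕ) :
    signedLog σ = signedLog (σ.1.erase p, σ.2.erase p) +
      ((if p ∈ σ.1 then 1 else 0) - (if p ∈ σ.2 then 1 else 0) : ℤ) * Real.log p := by
  have h : ∀ B : Finset ℕ, ∑ q ∈ B, Real.log q =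
      ∑ q ∈ B.erase p, Real.log q + ((if p ∈ B then 1 else 0 : ℤ) : ℝ) * Real.log p := fun B => by
    by_cases hp : p ∈ B
    · rw [if_pos hp, Int.cast_one, one_mul, sum_erase_add _ _ hp]
    · rw [if_neg hp, Int.cast_zero, zero_mul, add_zero, erase_eq_of_notMem hp]
  rw [signedLog, signedLog, h σ.1, h σ.2, Int.cast_sub]
  ring

/-- **A pair differing first at `p`.** -/
theorem card_differ_le {A U : Finset ℕ} {w : ℝ} {p : ℕ} (hpU : p ∉ U) :
    ((closePairs A w).filter fun q => (q.1.1 ∩ U = q.2.1 ∩ U ∧ q.1.2 ∩ U = q.2.2 ∩ U) ∧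
      ¬((p ∈ q.1.1 ↔ p ∈ q.2.1) ∧ (p ∈ q.1.2 ↔ p ∈ q.2.2))).card ≤
        16 * (windowPairs (A.erase p) U w p).card := by
  classical
  rw [show 16 = (univ : Finset ((Bool × Bool) × Bool × Bool)).card from rfl, mul_comm,
    ← card_product]
  refine card_le_card_of_injOn (fun q => (((q.1.1.erase p, q.1.2.erase p),
    (q.2.1.erase p, q.2.2.erase p)), membership p q)) (fun q hq => ?_) fun q hq q' hq' h => ?_
  · obtain ⟨⟨σ₁, σ₂⟩, τ₁, τ₂⟩ := q
    rw [mem_coe, mem_filter, closePairs, mem_filter, mem_product] at hq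
    obtain ⟨⟨⟨hσ, hτ⟩, hclose⟩, ⟨hU1, hU2⟩, hdiff⟩ := hq
    simp only at hU1 hU2 hdiff hclose
    rw [mem_coe, mem_product]
    refine ⟨mem_filter.2 ⟨?_, ?_⟩, mem_univ _⟩
    · obtain ⟨h1, h2, h3⟩ := mem_signs.1 hσ
      obtain ⟨h4, h5, h6⟩ := mem_signs.1 hτ
      simp only [agreePairs, mem_filter, mem_product, mem_signs, erase_inter,
        erase_eq_of_notMem fun h => hpU (mem_of_mem_inter_right h)]
      exact ⟨⟨⟨erase_subset_erase p h1, erase_subset_erase p h2,
          disjoint_of_subset_left (erase_subset _ _)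
            (disjoint_of_subset_right (erase_subset _ _) h3)⟩,
        erase_subset_erase p h4, erase_subset_erase p h5,
          disjoint_of_subset_left (erase_subset _ _)
            (disjoint_of_subset_right (erase_subset _ _) h6)⟩, hU1, hU2⟩
    · obtain ⟨c, hc⟩ : ∃ c : ℤ, c = ((if p ∈ σ₁ then 1 else 0) - (if p ∈ σ₂ then 1 else 0)) -
          ((if p ∈ τ₁ then 1 else 0) - (if p ∈ τ₂ then 1 else 0)) := ⟨_, rfl⟩
      refine ⟨c, ?_, ?_⟩
      · have d1 : ¬(p ∈ σ₁ ∧ p ∈ σ₂) := fun h => disjoint_left.1 (mem_signs.1 hσ).2.2 h.1 h.2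
        have d2 : ¬(p ∈ τ₁ ∧ p ∈ τ₂) := fun h => disjoint_left.1 (mem_signs.1 hτ).2.2 h.1 h.2
        rw [hc]
        by_cases a : p ∈ σ₁ <;> by_cases b : p ∈ σ₂ <;> by_cases a' : p ∈ τ₁ <;>
          by_cases b' : p ∈ τ₂ <;> simp_all
      · rw [signedLog_erase _ p, signedLog_erase (τ₁, τ₂) p] at hclose
        refine lt_of_eq_of_lt (congrArg abs ?_) hclose
        rw [hc, Int.cast_sub]
        ring
  · obtain ⟨⟨σ₁, σ₂⟩, τ₁, τ₂⟩ := q
    obtain ⟨⟨σ₁', σ₂'⟩, τ₁', τ₂'⟩ := q'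
    simp only [membership, Prod.mk.injEq, decide_eq_decide] at h
    obtain ⟨⟨⟨e1, e2⟩, e3, e4⟩, ⟨m1, m2⟩, m3, m4⟩ := h
    have key : ∀ B B' : Finset ℕ, B.erase p = B'.erase p → (p ∈ B ↔ p ∈ B') → B = B' :=
      fun B B' e m => by
        ext x
        rcases eq_or_ne x p with rfl | hx
        · exact m
        · exact ⟨fun h => mem_of_mem_erase (e ▸ mem_erase.2 ⟨hx, h⟩),
            fun h => mem_of_mem_erase (e.symm ▸ mem_erase.2 ⟨hx, h⟩)⟩
    rw [key _ _ e1 m1, key _ _ e2 m2, key _ _ e3 m3, key _ _ e4 m4]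

/-- **The close pairs by the first difference.** -/
theorem card_closePairs_le {A : Finset ℕ} {Q : ℕ → Finset ℕ} {J : ℕ} {w : ℝ}
    (hA : A ⊆ upperPart Q J) (hQ : ∀ i, ∀ j, i < j → Disjoint (Q i) (Q j)) :
    (closePairs A w).card ≤ 3 ^ A.card + ∑ j ∈ range J, ∑ p ∈ A ∩ Q j,
      16 * (windowPairs (A.erase p) (upperPart Q j) w p).card := by
  classical
  obtain ⟨V, hV⟩ : ∃ V : ℕ → ℕ → Finset ((Finset ℕ × Finset ℕ) × Finset ℕ × Finset ℕ),
      V = fun j p => (closePairs A w).filter fun q =>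
        (q.1.1 ∩ upperPart Q j = q.2.1 ∩ upperPart Q j ∧
          q.1.2 ∩ upperPart Q j = q.2.2 ∩ upperPart Q j) ∧
        ¬((p ∈ q.1.1 ↔ p ∈ q.2.1) ∧ (p ∈ q.1.2 ↔ p ∈ q.2.2)) := ⟨_, rfl⟩
  have hsub : closePairs A w ⊆ ((signs A).image fun σ => (σ, σ)) ∪
      (range J).biUnion fun j => (A ∩ Q j).biUnion (V j) := fun q hq => by
    obtain ⟨σ, τ⟩ := q
    obtain ⟨hστ, -⟩ := mem_filter.1 hq
    rw [mem_product] at hστ
    rw [mem_union]
    by_cases he : σ = τ
    · exact Or.inl (mem_image.2 ⟨σ, hστ.1, by rw [← he]⟩)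
    refine Or.inr ?_
    obtain ⟨h1, h2, -⟩ := mem_signs.1 hστ.1
    obtain ⟨h4, h5, -⟩ := mem_signs.1 hστ.2
    have hex : ∃ j, j < J ∧ ∃ p ∈ A ∩ Q j,
        ¬((p ∈ σ.1 ↔ p ∈ τ.1) ∧ (p ∈ σ.2 ↔ p ∈ τ.2)) := by
      by_contra hc
      have hc' : ∀ p ∈ A, (p ∈ σ.1 ↔ p ∈ τ.1) ∧ (p ∈ σ.2 ↔ p ∈ τ.2) := fun p hp => by
        obtain ⟨j, hj, hpj⟩ := mem_biUnion.1 (hA hp)
        by_contra h
        exact hc ⟨j, mem_range.1 hj, p, mem_inter.2 ⟨hp, hpj⟩, h⟩
      refine he (Prod.ext (Finset.ext fun p => ?_) (Finset.ext fun p => ?_))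
      · exact ⟨fun h => (hc' p (h1 h)).1.1 h, fun h => (hc' p (h4 h)).1.2 h⟩
      · exact ⟨fun h => (hc' p (h2 h)).2.1 h, fun h => (hc' p (h5 h)).2.2 h⟩
    obtain ⟨j, ⟨hj, p, hp, hdiff⟩, hmin⟩ : ∃ j, (j < J ∧ ∃ p ∈ A ∩ Q j,
        ¬((p ∈ σ.1 ↔ p ∈ τ.1) ∧ (p ∈ σ.2 ↔ p ∈ τ.2))) ∧ ∀ i < j, ¬(i < J ∧ ∃ p ∈ A ∩ Q i,
          ¬((p ∈ σ.1 ↔ p ∈ τ.1) ∧ (p ∈ σ.2 ↔ p ∈ τ.2))) :=
      ⟨Nat.find hex, Nat.find_spec hex, fun i hi => Nat.find_min hex hi⟩
    refine mem_biUnion.2 ⟨j, mem_range.2 hj, mem_biUnion.2 ⟨p, hp, ?_⟩⟩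
    have key : ∀ x ∈ upperPart Q j, x ∈ A →
        (x ∈ σ.1 ↔ x ∈ τ.1) ∧ (x ∈ σ.2 ↔ x ∈ τ.2) := fun x hx hxA => by
      obtain ⟨i, hi, hxi⟩ := mem_biUnion.1 hx
      by_contra hne
      exact hmin i (mem_range.1 hi)
        ⟨(mem_range.1 hi).trans hj, x, mem_inter.2 ⟨hxA, hxi⟩, hne⟩
    rw [hV]
    refine mem_filter.2 ⟨hq, ⟨Finset.ext fun x => ?_, Finset.ext fun x => ?_⟩, hdiff⟩ <;>
      simp only [mem_inter] <;> constructor <;> rintro ⟨ha, hb⟩ <;> refine ⟨?_, hb⟩
    · exact (key x hb (h1 ha)).1.1 ha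
    · exact (key x hb (h4 ha)).1.2 ha
    · exact (key x hb (h2 ha)).2.1 ha
    · exact (key x hb (h5 ha)).2.2 ha
  refine (card_le_card hsub).trans ((card_union_le _ _).trans (Nat.add_le_add
    (card_image_le.trans (card_signs A).le) (card_biUnion_le.trans (sum_le_sum fun j _ =>
      card_biUnion_le.trans (sum_le_sum fun p hp => ?_)))))
  rw [hV]
  refine card_differ_le fun h => ?_
  obtain ⟨i, hi, hpi⟩ := mem_biUnion.1 h
  exact disjoint_left.1 (hQ i j (mem_range.1 hi)) hpi (mem_inter.1 hp).2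

/-- `closePairs` over `9 ^ |A|`. -/
def closeShare (A : Finset ℕ) (w : ℝ) : ℝ := (closePairs A w).card / 9 ^ A.card

/-- At least `a j` primes above each range. -/
def IsDense (Q : ℕ → Finset ℕ) (J : ℕ) (a : ℕ → ℝ) (A : Finset ℕ) : Prop :=
  ∀ j ∈ range (J + 1), a j ≤ ((A ∩ upperPart Q j).card : ℝ)

theorem exists_window_sum_le : ∃ C : ℝ, 0 ≤ C ∧ ∀ (S : Finset ℕ) (T : ℝ), 1 ≤ T →
    (∀ p ∈ S, p.Prime ∧ T < Real.log p) → ∀ (A U : Finset ℕ) (w : ℝ), w ≤ 2 →
      ∑ p ∈ S, (p : ℝ)⁻¹ * ((windowPairs A U w p).card : ℝ) ≤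
        ((agreePairs A U).card : ℝ) * (C / T) := by
  obtain ⟨C, hC, hshort⟩ := exists_short_range_le
  refine ⟨4 * C, by positivity, fun S T hT hS A U w hw => ?_⟩
  classical
  have h : ∀ p, ((windowPairs A U w p).card : ℝ) ≤ ∑ q ∈ agreePairs A U,
      ∑ c ∈ ({-2, -1, 1, 2} : Finset ℤ),
        if |signedLog q.1 - signedLog q.2 + c * Real.log p| < w then (1 : ℝ) else 0 := fun p => by
    rw [windowPairs, ← sum_boole]
    refine sum_le_sum fun q _ => ?_
    split_ifs with hq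
    · obtain ⟨c, hc, hcw⟩ := hq
      exact le_trans (by rw [if_pos hcw]) (single_le_sum (f := fun c : ℤ =>
        if |signedLog q.1 - signedLog q.2 + c * Real.log p| < w then (1 : ℝ) else 0)
          (fun c _ => by split_ifs <;> norm_num) hc)
    · exact sum_nonneg fun c _ => by split_ifs <;> norm_num
  refine (sum_le_sum fun p _ => mul_le_mul_of_nonneg_left (h p) (by positivity)).trans ?_
  simp only [mul_sum, mul_ite, mul_one, mul_zero]
  rw [sum_comm, show ((agreePairs A U).card : ℝ) * (4 * C / T) =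
    ∑ _q ∈ agreePairs A U, 4 * C / T by rw [sum_const, nsmul_eq_mul]]
  refine sum_le_sum fun q _ => ?_
  rw [sum_comm]
  refine (sum_le_card_nsmul ({-2, -1, 1, 2} : Finset ℤ) _ (C / T) fun c hc => ?_).trans_eq ?_
  · rw [← sum_filter]
    obtain ⟨d, hd⟩ : ∃ d, d = signedLog q.1 - signedLog q.2 := ⟨_, rfl⟩
    rw [← hd]
    refine hshort (-d / c - 2) T hT _ fun p hp => ?_
    obtain ⟨hp, habs⟩ := mem_filter.1 hp
    refine ⟨(hS p hp).1, (hS p hp).2, ?_⟩
    obtain ⟨h1, h2⟩ := abs_lt.1 habs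
    simp only [mem_insert, mem_singleton] at hc
    rcases hc with rfl | rfl | rfl | rfl <;> push_cast at h1 h2 ⊢ <;> constructor <;> linarith
  · rw [show ({-2, -1, 1, 2} : Finset ℤ).card = 4 from rfl, nsmul_eq_mul]
    push_cast
    ring

open scoped Classical in
/-- **The mean of the close pairs.** -/
theorem exists_mean_closeShare_le : ∃ C : ℝ, 0 ≤ C ∧ ∀ (Q : ℕ → Finset ℕ) (J : ℕ) (a T : ℕ → ℝ)
    (w : ℝ), (∀ i, ∀ j, i < j → Disjoint (Q i) (Q j)) →
    (∀ j, j < J → 1 ≤ T j ∧ ∀ p ∈ Q j, p.Prime ∧ T j < Real.log p) → w ≤ 2 →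
    blockMean (upperPart Q J) (fun A => if IsDense Q J a A then closeShare A w else 0) ≤
      Real.exp (-(a J * Real.log 3)) +
        C * ∑ j ∈ range J, Real.exp (-(a j * Real.log 3)) / T j := by
  obtain ⟨C, hC, hwin⟩ := exists_window_sum_le
  refine ⟨4 * C, by positivity, fun Q J a T w hdis hQ hw => ?_⟩
  obtain ⟨P, hP⟩ : ∃ P, P = upperPart Q J := ⟨_, rfl⟩
  rw [← hP]
  have hprime : ∀ p ∈ P, p.Prime := fun p hp => by
    rw [hP] at hp
    obtain ⟨j, hj, hpj⟩ := mem_biUnion.1 hp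
    exact ((hQ j (mem_range.1 hj)).2 p hpj).1
  have hlog3 : (0 : ℝ) < Real.log 3 := Real.log_pos (by norm_num)
  have hpow : ∀ (n : ℕ) (x : ℝ), x ≤ n → ((3 : ℝ) ^ n)⁻¹ ≤ Real.exp (-(x * Real.log 3)) :=
    fun n x hx => by
      rw [Real.exp_neg]
      refine inv_anti₀ (Real.exp_pos _) ?_
      rw [← Real.exp_log (show (0 : ℝ) < 3 ^ n by positivity), Real.log_pow]
      exact Real.exp_le_exp.2 (mul_le_mul_of_nonneg_right hx hlog3.le)
  obtain ⟨F, hF⟩ : ∃ F : ℕ → ℕ → Finset ℕ → ℝ, F = fun j p B =>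
      if a j ≤ ((B ∩ upperPart Q j).card : ℝ) then
        ((windowPairs B (upperPart Q j) w p).card : ℝ) / 9 ^ B.card else 0 := ⟨_, rfl⟩
  have hF0 : ∀ j p B, 0 ≤ F j p B := fun j p B => by
    rw [hF]; dsimp only; split_ifs <;> positivity
  have hpt : ∀ A ⊆ P, (if IsDense Q J a A then closeShare A w else 0) ≤
      Real.exp (-(a J * Real.log 3)) + ∑ j ∈ range J, ∑ p ∈ Q j,
        2 * (if p ∈ A then F j p (A.erase p) else 0) := fun A hA => by
    have hnn : ∀ j p, 0 ≤ 2 * (if p ∈ A then F j p (A.erase p) else 0) := fun j p =>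
      mul_nonneg two_pos.le (by split_ifs <;> first | exact hF0 _ _ _ | exact le_rfl)
    split_ifs with hR
    swap
    · exact add_nonneg (Real.exp_nonneg _) (sum_nonneg fun j _ => sum_nonneg fun p _ => hnn j p)
    have h9 : (0 : ℝ) < 9 ^ A.card := by positivity
    have h := card_closePairs_le (w := w) (hP ▸ hA) hdis
    rw [closeShare, div_le_iff₀ h9, add_mul]
    refine (Nat.cast_le.2 h).trans ?_
    push_cast
    refine add_le_add ?_ ?_
    · have h1 := hpow A.card (a J) ((hR J (self_mem_range_succ J)).trans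
        (Nat.cast_le.2 (card_le_card inter_subset_left)))
      refine le_trans (le_of_eq ?_) (mul_le_mul_of_nonneg_right h1 h9.le)
      rw [show (9 : ℝ) = 3 * 3 by norm_num, mul_pow, ← mul_assoc,
        inv_mul_cancel₀ (show (3 : ℝ) ^ A.card ≠ 0 by positivity), one_mul]
    · rw [sum_mul]
      refine sum_le_sum fun j hj => ?_
      rw [sum_mul]
      refine le_trans (sum_le_sum
        (g := fun p => 2 * (if p ∈ A then F j p (A.erase p) else 0) * 9 ^ A.card) fun p hp => ?_)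
        (sum_le_sum_of_subset_of_nonneg inter_subset_right
          fun p _ _ => mul_nonneg (hnn j p) h9.le)
      obtain ⟨hpA, hpQ⟩ := mem_inter.1 hp
      have hpU : p ∉ upperPart Q j := fun h => by
        obtain ⟨i, hi, hpi⟩ := mem_biUnion.1 h
        exact disjoint_left.1 (hdis i j (mem_range.1 hi)) hpi hpQ
      have hjR := hR j (mem_range.2 (Nat.lt_succ_of_lt (mem_range.1 hj)))
      rw [if_pos hpA, hF]
      simp only
      rw [if_pos (by rwa [erase_inter, erase_eq_of_notMem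
        fun h => hpU (mem_of_mem_inter_right h)]), ← card_erase_add_one hpA, pow_succ]
      field_simp
      linarith [Nat.cast_nonneg (α := ℝ) (windowPairs (A.erase p) (upperPart Q j) w p).card]
  refine (blockMean_mono hprime hpt).trans ?_
  rw [blockMean_add, blockMean_const, blockMean_sum, mul_sum]
  refine add_le_add le_rfl (sum_le_sum fun j hj => ?_)
  rw [blockMean_sum]
  have hjJ := mem_range.1 hj
  have hQP : Q j ⊆ P := hP ▸ subset_biUnion_of_mem Q hj
  have h1 : ∀ p ∈ Q j, blockMean P (fun A => 2 * (if p ∈ A then F j p (A.erase p) else 0)) ≤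
      4 * blockMean P (fun B => (p : ℝ)⁻¹ * F j p B) := fun p hp => by
    rw [blockMean_const_mul, blockMean_mark (hQP hp), blockMean_const_mul]
    have h := mul_le_mul_of_nonneg_left (blockMean_erase_le hprime (hQP hp) (hF0 j p))
      (show 0 ≤ 2 * (p : ℝ)⁻¹ by positivity)
    linarith
  refine (sum_le_sum h1).trans ?_
  rw [← mul_sum, ← blockMean_sum, mul_assoc 4]
  refine mul_le_mul_of_nonneg_left ?_ (by norm_num)
  refine le_trans (blockMean_mono hprime (g := fun _ => C * (Real.exp (-(a j * Real.log 3)) / T j))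
    fun B _ => ?_) (blockMean_const _ _).le
  rcases le_or_gt (a j) ((B ∩ upperPart Q j).card : ℝ) with hB | hB
  · obtain ⟨hT, hT'⟩ := hQ j hjJ
    simp only [hF, if_pos hB, ← mul_div_assoc, ← sum_div]
    rw [div_le_div_iff₀ (by positivity) (by linarith)]
    have h2 := hwin (Q j) (T j) hT hT' B (upperPart Q j) w hw
    rw [mul_div_assoc', le_div_iff₀ (by linarith)] at h2
    refine h2.trans ?_
    have h3 : ((agreePairs B (upperPart Q j)).card : ℝ) ≤
        3 ^ B.card * 3 ^ (B \ upperPart Q j).card := by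
      exact_mod_cast card_agreePairs_le B (upperPart Q j)
    have h4 := hpow _ _ hB
    have h5 : (3 : ℝ) ^ B.card =
        3 ^ (B \ upperPart Q j).card * 3 ^ (B ∩ upperPart Q j).card := by
      rw [← pow_add, ← card_union_of_disjoint (disjoint_sdiff_inter _ _), sdiff_union_inter]
    have h6 : ((agreePairs B (upperPart Q j)).card : ℝ) ≤
        Real.exp (-(a j * Real.log 3)) * 9 ^ B.card := by
      refine h3.trans (le_trans (le_of_eq ?_) (mul_le_mul_of_nonneg_right h4 (by positivity)))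
      rw [show (9 : ℝ) = 3 * 3 by norm_num, mul_pow]
      nth_rewrite 2 [h5]
      nth_rewrite 1 [h5]
      field_simp
      exact h5.symm
    have := mul_le_mul_of_nonneg_right h6 hC
    linarith
  · obtain ⟨hT, -⟩ := hQ j hjJ
    simp only [hF, if_neg (not_le.2 hB), mul_zero, sum_const_zero]
    positivity

/-- The ranges of width `w` of the sums. -/
def binSet (A : Finset ℕ) (w : ℝ) : Finset ℤ := (signs A).image fun σ => ⌊signedLog σ / w⌋

theorem inv_closeShare_le {A : Finset ℕ} {w : ℝ} (hw : 0 < w) :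
    1 ≤ closeShare A w * ((binSet A w).card : ℝ) := by
  have h := Korobov.sq_card_le_card_image_mul_energy (signs A) fun σ => ⌊signedLog σ / w⌋
  have hen : Korobov.energy (signs A) (fun σ => ⌊signedLog σ / w⌋) ≤ (closePairs A w).card := by
    refine card_le_card fun q hq => ?_
    obtain ⟨hq, he⟩ := mem_filter.1 hq
    simp only at he
    refine mem_filter.2 ⟨hq, ?_⟩
    have h1 := Int.floor_le (signedLog q.1 / w)
    have h2 := Int.lt_floor_add_one (signedLog q.1 / w)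
    have h3 := Int.floor_le (signedLog q.2 / w)
    have h4 := Int.lt_floor_add_one (signedLog q.2 / w)
    rw [he] at h1 h2
    rw [le_div_iff₀ hw] at h1 h3
    rw [div_lt_iff₀ hw] at h2 h4
    rw [abs_lt]
    constructor <;> linarith
  have h' := h.trans (Nat.mul_le_mul_left _ hen)
  rw [card_signs] at h'
  rw [closeShare, div_mul_eq_mul_div, le_div_iff₀ (by positivity), one_mul, binSet]
  have h'' : ((3 : ℝ) ^ A.card) ^ 2 ≤
      (((signs A).image fun σ => ⌊signedLog σ / w⌋).card : ℝ) * (closePairs A w).card := by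
    exact_mod_cast h'
  refine le_trans (le_of_eq ?_) (h''.trans (le_of_eq (mul_comm _ _)))
  rw [← pow_mul, mul_comm, pow_mul]
  norm_num

end FA.CloseDivisors

end
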