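import Fermat.Agent.CloseDivisors.Block

/-!
# The theorem of Maier and Tenenbaum

Any number of disjoint blocks of primes is available, each giving two close divisors with
probability at least `ρ`; so the integers without two divisors `d < d' < 2 d` have density `0`.
-/

set_option autoImplicit false

noncomputable section

namespace FA.CloseDivisors

open Finset Filter
open scoped Topology

theorem HasClose.mono {A B : Finset ℕ} (h : HasClose A) (hAB : A ⊆ B) : HasClose B := by
  obtain ⟨σ, hσ, hne, hlt⟩ := h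
  obtain ⟨h1, h2, h3⟩ := mem_signs.1 hσ
  exact ⟨σ, mem_signs.2 ⟨h1.trans hAB, h2.trans hAB, h3⟩, hne, hlt⟩

theorem closeInd_mono {A B : Finset ℕ} (hAB : A ⊆ B) : closeInd A ≤ closeInd B := by
  by_cases h : HasClose A
  · rw [closeInd_eq_one h, closeInd_eq_one (h.mono hAB)]
  · rw [closeInd, if_neg h]
    exact closeInd_nonneg B

theorem closeInd_le_one (A : Finset ℕ) : closeInd A ≤ 1 := by
  rw [closeInd]; split_ifs <;> norm_num

/-- **Many independent blocks.** -/
theorem exists_blocks : ∃ ρ : ℝ, 0 < ρ ∧ ρ ≤ 1 ∧ ∀ m : ℕ, ∃ P : Finset ℕ,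
    (∀ p ∈ P, p.Prime) ∧ blockMean P (fun A => 1 - closeInd A) ≤ (1 - ρ) ^ m := by
  obtain ⟨ρ, hρ, hblock⟩ := exists_block
  have hρ1 : ρ ≤ 1 := by
    obtain ⟨P, hP, h⟩ := hblock 0
    exact h.trans ((blockMean_mono (fun p hp => (hP p hp).1) fun A _ => closeInd_le_one A).trans
      (blockMean_one P).le)
  refine ⟨ρ, hρ, hρ1, fun m => ?_⟩
  induction m with
  | zero =>
    refine ⟨∅, by simp, ?_⟩
    rw [pow_zero]
    refine (blockMean_mono (g := fun _ => (1 : ℝ)) (by simp) fun A _ => ?_).trans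
      (blockMean_one ∅).le
    linarith [closeInd_nonneg A]
  | succ m ih =>
    obtain ⟨P, hP, hm⟩ := ih
    obtain ⟨Q, hQ, hQρ⟩ := hblock (∑ p ∈ P, Real.log p)
    have hQ' : ∀ p ∈ Q, p.Prime := fun p hp => (hQ p hp).1
    have hdis : Disjoint P Q := disjoint_left.2 fun p hp hp' => by
      have h := single_le_sum (f := fun p : ℕ => Real.log p)
        (fun p _ => Real.log_natCast_nonneg p) hp
      exact absurd (hQ p hp').2 (not_lt.2 h)
    have hPQ : ∀ p ∈ P ∪ Q, p.Prime := fun p hp => (mem_union.1 hp).elim (hP p) (hQ' p)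
    refine ⟨P ∪ Q, hPQ, ?_⟩
    refine (blockMean_mono hPQ (g := fun A => (fun C => 1 - closeInd C) (A ∩ P) *
      (fun C => 1 - closeInd C) (A ∩ Q)) fun A _ => ?_).trans ?_
    · have h1 := closeInd_mono (inter_subset_left : A ∩ P ⊆ A)
      have h2 := closeInd_mono (inter_subset_left : A ∩ Q ⊆ A)
      rcases le_or_gt (closeInd A) 0 with h | h
      · have e1 : closeInd (A ∩ P) = 0 := le_antisymm (h1.trans h) (closeInd_nonneg _)
        have e2 : closeInd (A ∩ Q) = 0 := le_antisymm (h2.trans h) (closeInd_nonneg _)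
        simp only [e1, e2]
        linarith [closeInd_nonneg A]
      · have e : closeInd A = 1 := by
          by_cases hc : HasClose A
          · exact closeInd_eq_one hc
          · rw [closeInd, if_neg hc] at h
            exact absurd h (lt_irrefl 0)
        rw [e, sub_self]
        exact mul_nonneg (sub_nonneg.2 (closeInd_le_one _)) (sub_nonneg.2 (closeInd_le_one _))
    rw [blockMean_union_mul hdis (fun C => 1 - closeInd C) (fun C => 1 - closeInd C), pow_succ]
    refine mul_le_mul hm ?_ (blockMean_nonneg hQ' fun A _ => sub_nonneg.2 (closeInd_le_one A))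
      (pow_nonneg (sub_nonneg.2 hρ1) m)
    rw [blockMean_sub, blockMean_const]
    linarith

/-- Close signed products give close divisors. -/
theorem exists_divisors_of_hasClose {n : ℕ} {A : Finset ℕ} (hA : ∀ p ∈ A, p.Prime ∧ p ∣ n)
    (h : HasClose A) : ∃ d d' : ℕ, d ∣ n ∧ d' ∣ n ∧ d < d' ∧ d' < 2 * d := by
  obtain ⟨σ, hσ, hne, hlt⟩ := h
  obtain ⟨h1, h2, -⟩ := mem_signs.1 hσ
  obtain ⟨F, hF⟩ : ∃ F : Finset ℕ → ℕ, F = fun B => ∏ p ∈ B, p := ⟨_, rfl⟩
  have hpos : ∀ B ⊆ A, 0 < F B := fun B hB => by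
    rw [hF]
    exact prod_pos fun p hp => (hA p (hB hp)).1.pos
  have hdvd : ∀ B ⊆ A, F B ∣ n := fun B hB => by
    rw [hF]
    exact prod_primes_dvd n (fun p hp => (hA p (hB hp)).1.prime) fun p hp => (hA p (hB hp)).2
  have hlog : ∀ B ⊆ A, Real.log (F B) = ∑ p ∈ B, Real.log p := fun B hB => by
    rw [hF, Nat.cast_prod, Real.log_prod fun p hp => Nat.cast_ne_zero.2 (hA p (hB hp)).1.ne_zero]
  have hinj : F σ.1 ≠ F σ.2 := fun e => by
    refine hne ?_
    rw [← Nat.primeFactors_prod fun p hp => (hA p (h1 hp)).1,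
      ← Nat.primeFactors_prod fun p hp => (hA p (h2 hp)).1]
    rw [hF] at e
    exact congrArg Nat.primeFactors e
  rw [signedLog, ← hlog _ h1, ← hlog _ h2] at hlt
  have key : ∀ x y : ℕ, 0 < x → 0 < y → Real.log x - Real.log y < Real.log 2 → x < 2 * y :=
    fun x y hx hy h => by
      have hy0 : (0 : ℝ) < y := Nat.cast_pos.2 hy
      have h' : Real.log x < Real.log (2 * y) := by
        rw [Real.log_mul two_ne_zero hy0.ne']
        linarith
      exact_mod_cast (Real.log_lt_log_iff (Nat.cast_pos.2 hx) (by positivity)).1 h'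
  obtain ⟨hlo, hhi⟩ := abs_lt.1 hlt
  rcases lt_or_gt_of_ne hinj with hlt' | hgt
  · exact ⟨F σ.1, F σ.2, hdvd _ h1, hdvd _ h2, hlt',
      key _ _ (hpos _ h2) (hpos _ h1) (by linarith)⟩
  · exact ⟨F σ.2, F σ.1, hdvd _ h2, hdvd _ h1, hgt, key _ _ (hpos _ h1) (hpos _ h2) hhi⟩

open scoped Classical in
/-- The integers `≤ N` without two divisors `d < d' < 2 d`. -/
def lonelyCount (N : ℕ) : ℕ :=
  ((Icc 1 N).filter fun n => ¬∃ d d' : ℕ, d ∣ n ∧ d' ∣ n ∧ d < d' ∧ d' < 2 * d).card

/-- **Maier and Tenenbaum.** -/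
theorem tendsto_lonelyCount : Tendsto (fun N : ℕ => (lonelyCount N : ℝ) / N) atTop (𝓝 0) := by
  obtain ⟨ρ, hρ, hρ1, hblocks⟩ := exists_blocks
  refine Metric.tendsto_nhds.2 fun ε hε => ?_
  obtain ⟨m, hm⟩ := exists_pow_lt_of_lt_one (half_pos hε) (show 1 - ρ < 1 by linarith)
  obtain ⟨P, hP, hmean⟩ := hblocks m
  filter_upwards [(tendsto_natCast_atTop_atTop (R := ℝ)).eventually_gt_atTop
    ((5 : ℝ) ^ P.card / (ε / 2)), eventually_ge_atTop 1] with N hN hN1
  have hN0 : (0 : ℝ) < N := Nat.cast_pos.2 hN1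
  rw [div_lt_iff₀ (half_pos hε)] at hN
  have hcount : (lonelyCount N : ℝ) ≤ countSum P (fun A => 1 - closeInd A) N := by
    classical
    rw [lonelyCount, countSum, ← sum_boole]
    refine sum_le_sum fun n _ => ?_
    split_ifs with h
    · exact sub_nonneg.2 (closeInd_le_one _)
    · rw [closeInd, if_neg fun hc => h (exists_divisors_of_hasClose
        (fun p hp => ⟨hP p (mem_filter.1 hp).1, (mem_filter.1 hp).2⟩) hc), sub_zero]
  have herr := (abs_le.1 (abs_countSum_sub_le hP (g := fun A => 1 - closeInd A) (B := 1)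
    (fun A => abs_le.2 ⟨by linarith [closeInd_le_one A], by linarith [closeInd_nonneg A]⟩) N)).2
  have h2 := mul_le_mul_of_nonneg_left (hmean.trans hm.le) hN0.le
  rw [Real.dist_0_eq_abs, abs_of_nonneg (by positivity), div_lt_iff₀ hN0]
  linarith

end FA.CloseDivisors

end
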