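import Mathlib.Algebra.BigOperators.Group.Finset.Powerset
import Mathlib.Analysis.SpecialFunctions.Pow.Real
import Mathlib.Data.Nat.Prime.Basic
import Mathlib.Order.Interval.Finset.Nat

/-!
# The random set of the divisors in a finite set of primes

For a finite set `P` of primes `blockMean P g` is the mean of `g A` for the random subset `A` which
has each `p` independently with probability `1 / p`. It is the limit of the mean over `n ≤ N` of `g`
at the primes of `P` dividing `n`, with error `O (1 / N)`.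
-/

set_option autoImplicit false

noncomputable section

namespace FA.CloseDivisors

open Finset

/-- The probability of `A`. -/
def setWeight (P A : Finset ℕ) : ℝ :=
  (∏ p ∈ A, ((p : ℝ))⁻¹) * ∏ p ∈ P \ A, (1 - ((p : ℝ))⁻¹)

/-- The mean of `g`. -/
def blockMean (P : Finset ℕ) (g : Finset ℕ → ℝ) : ℝ := ∑ A ∈ P.powerset, setWeight P A * g A

theorem inv_le_one_of_prime {p : ℕ} (hp : p.Prime) : (p : ℝ)⁻¹ ≤ 1 :=
  inv_le_one_of_one_le₀ (Nat.one_le_cast.2 hp.one_le)

theorem setWeight_nonneg {P : Finset ℕ} (hP : ∀ p ∈ P, p.Prime) (A : Finset ℕ) :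
    0 ≤ setWeight P A :=
  mul_nonneg (prod_nonneg fun p _ => by positivity)
    (prod_nonneg fun p hp => sub_nonneg.2 (inv_le_one_of_prime (hP p (mem_sdiff.1 hp).1)))

theorem blockMean_add (P : Finset ℕ) (f g : Finset ℕ → ℝ) :
    blockMean P (fun A => f A + g A) = blockMean P f + blockMean P g := by
  simp only [blockMean, mul_add, sum_add_distrib]

theorem blockMean_sub (P : Finset ℕ) (f g : Finset ℕ → ℝ) :
    blockMean P (fun A => f A - g A) = blockMean P f - blockMean P g := by
  simp only [blockMean, mul_sub, sum_sub_distrib]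

theorem blockMean_const_mul (P : Finset ℕ) (c : ℝ) (g : Finset ℕ → ℝ) :
    blockMean P (fun A => c * g A) = c * blockMean P g := by
  simp only [blockMean, mul_sum]
  exact sum_congr rfl fun A _ => by ring

theorem blockMean_sum {ι : Type*} (P : Finset ℕ) (s : Finset ι) (g : ι → Finset ℕ → ℝ) :
    blockMean P (fun A => ∑ i ∈ s, g i A) = ∑ i ∈ s, blockMean P (g i) := by
  simp only [blockMean, mul_sum]
  exact sum_comm

theorem blockMean_mono {P : Finset ℕ} (hP : ∀ p ∈ P, p.Prime) {f g : Finset ℕ → ℝ}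
    (h : ∀ A ⊆ P, f A ≤ g A) : blockMean P f ≤ blockMean P g :=
  sum_le_sum fun A hA =>
    mul_le_mul_of_nonneg_left (h A (mem_powerset.1 hA)) (setWeight_nonneg hP A)

theorem blockMean_one (P : Finset ℕ) : blockMean P (fun _ => 1) = 1 := by
  have h := prod_add (fun p : ℕ => ((p : ℝ))⁻¹) (fun p => 1 - ((p : ℝ))⁻¹) P
  simp only [add_sub_cancel, prod_const_one] at h
  simp only [blockMean, setWeight, mul_one]
  exact h.symm

theorem blockMean_const (P : Finset ℕ) (c : ℝ) : blockMean P (fun _ => c) = c := by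
  have h := blockMean_const_mul P c fun _ => 1
  simpa only [mul_one, blockMean_one] using h

theorem blockMean_nonneg {P : Finset ℕ} (hP : ∀ p ∈ P, p.Prime) {g : Finset ℕ → ℝ}
    (h : ∀ A ⊆ P, 0 ≤ g A) : 0 ≤ blockMean P g :=
  (blockMean_const P 0).symm.le.trans (blockMean_mono hP h)

/-- One prime more. -/
theorem blockMean_insert {P : Finset ℕ} {p : ℕ} (hp : p ∉ P) (g : Finset ℕ → ℝ) :
    blockMean (insert p P) g =
      (1 - (p : ℝ)⁻¹) * blockMean P g + (p : ℝ)⁻¹ * blockMean P (fun A => g (insert p A)) := by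
  simp only [blockMean, mul_sum]
  rw [sum_powerset_insert hp]
  refine congrArg₂ (· + ·) (sum_congr rfl fun A hA => ?_) (sum_congr rfl fun A hA => ?_)
  · have hpA : p ∉ A := fun h => hp (mem_powerset.1 hA h)
    rw [setWeight, setWeight, insert_sdiff_of_notMem _ hpA,
      prod_insert fun h => hp (mem_sdiff.1 h).1]
    ring
  · have hpA : p ∉ A := fun h => hp (mem_powerset.1 hA h)
    rw [setWeight, setWeight, prod_insert hpA, insert_sdiff_insert, sdiff_insert_of_notMem hp]
    ring

/-- **Independence.** -/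
theorem blockMean_union {P Q : Finset ℕ} (h : Disjoint P Q) (g : Finset ℕ → ℝ) :
    blockMean (P ∪ Q) g = blockMean P fun A => blockMean Q fun B => g (A ∪ B) := by
  induction Q using Finset.induction_on generalizing g with
  | empty => simp [blockMean, setWeight]
  | insert q Q hq ih =>
    rw [disjoint_insert_right] at h
    rw [union_insert, blockMean_insert (notMem_union.2 ⟨h.1, hq⟩), ih h.2, ih h.2,
      ← blockMean_const_mul, ← blockMean_const_mul, ← blockMean_add]
    refine sum_congr rfl fun A _ => congrArg _ ?_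
    simp only [blockMean_insert hq, union_insert]

/-- The mean of a product over two disjoint sets. -/
theorem blockMean_union_mul {P Q : Finset ℕ} (h : Disjoint P Q) (f g : Finset ℕ → ℝ) :
    blockMean (P ∪ Q) (fun A => f (A ∩ P) * g (A ∩ Q)) = blockMean P f * blockMean Q g := by
  rw [blockMean_union h, mul_comm, ← blockMean_const_mul]
  refine sum_congr rfl fun A hA => congrArg _ ?_
  have hA' := mem_powerset.1 hA
  beta_reduce
  rw [mul_comm, ← blockMean_const_mul]
  refine sum_congr rfl fun B hB => congrArg _ ?_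
  have hB' := mem_powerset.1 hB
  have e1 : (A ∪ B) ∩ P = A := by
    rw [union_inter_distrib_right, inter_eq_left.2 hA',
      disjoint_iff_inter_eq_empty.1 (disjoint_of_subset_left hB' h.symm), union_empty]
  have e2 : (A ∪ B) ∩ Q = B := by
    rw [union_inter_distrib_right, inter_eq_left.2 hB',
      disjoint_iff_inter_eq_empty.1 (disjoint_of_subset_left hA' h), empty_union]
  simp only [e1, e2]

/-- The mean over a marked element. -/
theorem blockMean_mark {P : Finset ℕ} {p : ℕ} (hp : p ∈ P) (F : Finset ℕ → ℝ) :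
    blockMean P (fun A => if p ∈ A then F (A.erase p) else 0) =
      (p : ℝ)⁻¹ * blockMean (P.erase p) F := by
  conv_lhs => rw [← insert_erase hp]
  rw [blockMean_insert (notMem_erase p P)]
  have h1 : blockMean (P.erase p) (fun A => if p ∈ A then F (A.erase p) else 0) = 0 :=
    sum_eq_zero fun A hA => by
      beta_reduce
      rw [if_neg fun h => notMem_erase p P (mem_powerset.1 hA h), mul_zero]
  have h2 : blockMean (P.erase p)
      (fun A => if p ∈ insert p A then F ((insert p A).erase p) else 0) =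
      blockMean (P.erase p) F := sum_congr rfl fun A hA => by
    beta_reduce
    rw [if_pos (mem_insert_self p A),
      erase_insert fun h => notMem_erase p P (mem_powerset.1 hA h)]
  rw [h1, h2, mul_zero, zero_add]

theorem blockMean_erase_le {P : Finset ℕ} (hP : ∀ p ∈ P, p.Prime) {p : ℕ} (hp : p ∈ P)
    {F : Finset ℕ → ℝ} (hF : ∀ A, 0 ≤ F A) : blockMean (P.erase p) F ≤ 2 * blockMean P F := by
  have hP' : ∀ q ∈ P.erase p, q.Prime := fun q hq => hP q (mem_of_mem_erase hq)
  have h0 := blockMean_nonneg hP' fun A _ => hF A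
  conv_rhs => rw [← insert_erase hp, blockMean_insert (notMem_erase p P)]
  have h1 : (p : ℝ)⁻¹ ≤ 1 / 2 := by
    rw [one_div]
    exact inv_anti₀ two_pos (Nat.ofNat_le_cast.2 (hP p hp).two_le)
  have h2 : 0 ≤ (p : ℝ)⁻¹ * blockMean (P.erase p) (fun A => F (insert p A)) :=
    mul_nonneg (by positivity) (blockMean_nonneg hP' fun A _ => hF _)
  have h3 := mul_le_mul_of_nonneg_right h1 h0
  linarith

/-- The mean of `∑_{p ∈ A} f p`. -/
theorem blockMean_sum_mem (P : Finset ℕ) (f : ℕ → ℝ) :
    blockMean P (fun A => ∑ p ∈ A, f p) = ∑ p ∈ P, (p : ℝ)⁻¹ * f p := by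
  have h : ∀ A ∈ P.powerset, setWeight P A * ∑ p ∈ A, f p =
      setWeight P A * ∑ p ∈ P, if p ∈ A then f p else 0 := fun A hA => by
    rw [sum_ite_mem, inter_eq_right.2 (mem_powerset.1 hA)]
  rw [blockMean, sum_congr rfl h, ← blockMean, blockMean_sum]
  refine sum_congr rfl fun p hp => ?_
  rw [blockMean_mark hp fun _ => f p, blockMean_const]

/-- **Chernoff.** -/
theorem blockMean_few_le {P U : Finset ℕ} (hP : ∀ p ∈ P, p.Prime) (hU : U ⊆ P) {s : ℝ}
    (hs : 0 < s) (hs1 : s ≤ 1) (m : ℝ) :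
    blockMean P (fun A => if ((A ∩ U).card : ℝ) < m then 1 else 0) ≤
      Real.exp (-((1 - s) * ∑ p ∈ U, ((p : ℝ))⁻¹) - m * Real.log s) := by
  have hpt : ∀ A ⊆ P, (if ((A ∩ U).card : ℝ) < m then (1 : ℝ) else 0) ≤
      Real.exp (-(m * Real.log s)) * s ^ (A ∩ U).card := fun A _ => by
    split_ifs with h
    · rw [← Real.exp_log (pow_pos hs _), Real.log_pow, ← Real.exp_add]
      refine Real.one_le_exp ?_
      have := mul_le_mul_of_nonpos_right h.le (Real.log_nonpos hs.le hs1)
      linarith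
    · positivity
  refine (blockMean_mono hP hpt).trans ?_
  rw [blockMean_const_mul, show -((1 - s) * ∑ p ∈ U, ((p : ℝ))⁻¹) - m * Real.log s =
    -(m * Real.log s) + -((1 - s) * ∑ p ∈ U, ((p : ℝ))⁻¹) by ring, Real.exp_add]
  refine mul_le_mul_of_nonneg_left ?_ (Real.exp_nonneg _)
  have e : blockMean P (fun A => s ^ (A ∩ U).card) =
      ∏ p ∈ P, ((if p ∈ U then s else 1) * ((p : ℝ))⁻¹ + (1 - ((p : ℝ))⁻¹)) := by
    rw [prod_add, blockMean]
    refine sum_congr rfl fun A _ => ?_
    rw [setWeight, prod_mul_distrib, prod_ite_mem, prod_const]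
    ring
  rw [e, mul_sum, ← sum_neg_distrib, Real.exp_sum, ← prod_sdiff hU]
  refine le_of_eq_of_le ?_ (prod_le_prod (fun p hp => ?_) fun p hp =>
    (le_of_eq (show s * ((p : ℝ))⁻¹ + (1 - ((p : ℝ))⁻¹) = -((1 - s) * ((p : ℝ))⁻¹) + 1 by
      ring)).trans (Real.add_one_le_exp _))
  · rw [prod_eq_one fun p hp => by rw [if_neg (mem_sdiff.1 hp).2, one_mul, add_sub_cancel],
      one_mul]
    exact prod_congr rfl fun p hp => by rw [if_pos hp]
  · exact add_nonneg (by positivity) (sub_nonneg.2 (inv_le_one_of_prime (hP p (hU hp))))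

/-- The sum over `n ≤ N` of `g` at the primes of `P` dividing `n`. -/
def countSum (P : Finset ℕ) (g : Finset ℕ → ℝ) (N : ℕ) : ℝ :=
  ∑ n ∈ Icc 1 N, g (P.filter (· ∣ n))

theorem countSum_insert {P : Finset ℕ} (hP : ∀ q ∈ P, q.Prime) {p : ℕ} (hp : p.Prime) (hpP : p ∉ P)
    (g : Finset ℕ → ℝ) (N : ℕ) : countSum (insert p P) g N =
      countSum P g N - countSum P g (N / p) + countSum P (fun A => g (insert p A)) (N / p) := by
  have hfil : ∀ m : ℕ, P.filter (· ∣ p * m) = P.filter (· ∣ m) := fun m => by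
    refine filter_congr fun q hq => ⟨fun h => ?_, fun h => h.mul_left p⟩
    rcases (hP q hq).dvd_mul.1 h with h' | h'
    · exact absurd ((Nat.prime_dvd_prime_iff_eq (hP q hq) hp).1 h' ▸ hq) hpP
    · exact h'
  have hre : ∀ φ : ℕ → ℝ,
      ∑ n ∈ (Icc 1 N).filter (p ∣ ·), φ n = ∑ m ∈ Icc 1 (N / p), φ (p * m) := fun φ => by
    refine sum_bij' (fun n _ => n / p) (fun m _ => p * m) (fun n hn => ?_) (fun m hm => ?_)
      (fun n hn => ?_) (fun m hm => ?_) (fun n hn => ?_)
    · obtain ⟨hn, hd⟩ := mem_filter.1 hn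
      rw [mem_Icc] at hn ⊢
      exact ⟨(Nat.one_le_div_iff hp.pos).2 (Nat.le_of_dvd hn.1 hd), Nat.div_le_div_right hn.2⟩
    · rw [mem_Icc] at hm
      have h := hm.2
      rw [Nat.le_div_iff_mul_le hp.pos, mul_comm] at h
      exact mem_filter.2 ⟨mem_Icc.2 ⟨Nat.mul_pos hp.pos hm.1, h⟩, dvd_mul_right _ _⟩
    · exact Nat.mul_div_cancel' (mem_filter.1 hn).2
    · exact Nat.mul_div_cancel_left _ hp.pos
    · rw [Nat.mul_div_cancel' (mem_filter.1 hn).2]
  have h : ∀ n : ℕ, g ((insert p P).filter (· ∣ n)) = g (P.filter (· ∣ n)) +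
      if p ∣ n then g (insert p (P.filter (· ∣ n))) - g (P.filter (· ∣ n)) else 0 := fun n => by
    rw [filter_insert]
    split_ifs <;> ring
  rw [countSum, sum_congr rfl fun n _ => h n, sum_add_distrib, ← sum_filter, hre]
  simp only [hfil, countSum, sum_sub_distrib]
  ring

theorem abs_countSum_sub_le {P : Finset ℕ} (hP : ∀ p ∈ P, p.Prime) {g : Finset ℕ → ℝ} {B : ℝ}
    (hg : ∀ A, |g A| ≤ B) (N : ℕ) :
    |countSum P g N - N * blockMean P g| ≤ 5 ^ P.card * B := by
  induction P using Finset.induction_on generalizing g N with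
  | empty =>
    have hB : 0 ≤ B := (abs_nonneg _).trans (hg ∅)
    simp [countSum, blockMean, setWeight, hB]
  | insert p P hpP ih =>
    have hp := hP p (mem_insert_self p P)
    have hP' : ∀ q ∈ P, q.Prime := fun q hq => hP q (mem_insert_of_mem hq)
    have hB : 0 ≤ B := (abs_nonneg _).trans (hg ∅)
    have hg' : ∀ A, |g (insert p A)| ≤ B := fun A => hg _
    have hmean : ∀ f : Finset ℕ → ℝ, (∀ A, |f A| ≤ B) → |blockMean P f| ≤ B := fun f hf =>
      abs_le.2 ⟨(blockMean_const P (-B)).symm.le.trans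
          (blockMean_mono hP' fun A _ => (abs_le.1 (hf A)).1),
        (blockMean_mono hP' fun A _ => (abs_le.1 (hf A)).2).trans (blockMean_const P B).le⟩
    have h1 := abs_le.1 (ih hP' hg N)
    have h2 := abs_le.1 (ih hP' hg (N / p))
    have h3 := abs_le.1 (ih hP' hg' (N / p))
    rw [countSum_insert hP' hp hpP, blockMean_insert hpP, card_insert_of_notMem hpP, pow_succ]
    have hp0 : (0 : ℝ) < p := Nat.cast_pos.2 hp.pos
    have hfl : |((N / p : ℕ) : ℝ) - N * (p : ℝ)⁻¹| ≤ 1 := by
      have h1 : ((N / p : ℕ) : ℝ) ≤ N * (p : ℝ)⁻¹ := Nat.cast_div_le.trans_eq (div_eq_mul_inv _ _)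
      have h2 : (N : ℝ) < ((N / p : ℕ) : ℝ) * p + p := by
        exact_mod_cast Nat.lt_div_mul_add (a := N) hp.pos
      have h3 : (N : ℝ) * (p : ℝ)⁻¹ ≤ ((N / p : ℕ) : ℝ) + 1 := by
        rw [← div_eq_mul_inv, div_le_iff₀ hp0]
        linarith
      rw [abs_le]
      constructor <;> linarith
    obtain ⟨r, hr⟩ : ∃ r, r = ((N / p : ℕ) : ℝ) - N * (p : ℝ)⁻¹ := ⟨_, rfl⟩
    rw [← hr] at hfl
    have hm : |r * (blockMean P (fun A => g (insert p A)) - blockMean P g)| ≤ 1 * (B + B) := by
      rw [abs_mul]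
      refine mul_le_mul hfl ?_ (abs_nonneg _) zero_le_one
      exact (abs_sub _ _).trans (add_le_add (hmean _ hg') (hmean g hg))
    obtain ⟨m1, m2⟩ := abs_le.1 hm
    have h5 : B ≤ 5 ^ P.card * B := le_mul_of_one_le_left hB (one_le_pow₀ (by norm_num))
    rw [hr] at m1 m2
    rw [abs_le]
    constructor <;> linarith

end FA.CloseDivisors

end
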